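import Mathlib

/-!
# S55 / layer G / block REC — leaf `REC-Ltame` (helper541), part 1: pure algebra

Mathlib-only.  Contents:

* `core_identity_int`: the exponent bookkeeping behind the skew-symmetry of the Kummer symbol;
* `cexp σ hσ g`: the exponent `k < orderOf σ` with `σ ^ k = g` in a finite group generated by `σ`,
  with `cexp_mul : cexp (g * h) = (cexp g + cexp h) % orderOf σ`;
* `kummer_sum_mem_coboundaries`: for a `G`-module `A` (written additively) containing `ζ, α, β`
  with `n • ζ = 0`, `g ζ = ζ`, `g α = α + (s * i g) • ζ`, `g β = β + (t * j g) • ζ`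
  (`i, j : G → ℕ` "logarithms" of characters of orders `d, d'`), the 2-cochain
  `(g, h) ↦ (m * carry_i (g, h)) • (n • β) + (m' * carry_j (g, h)) • (n • α)`
  (`n * m = s * d`, `n * m' = t * d'`) is the coboundary of the explicit 1-cochain
  `g ↦ (t * j g) • α + (s * i g) • β + (s * t * i g * j g) • ζ`.
  Multiplicatively: `x(g) = α^{t j(g)} β^{s i(g)} ζ^{s t i(g) j(g)}`.
-/

set_option autoImplicit false

namespace Fermat.Agent.S55.G.Rec.H541

open groupCohomology

/-- Exponent bookkeeping for `kummer_sum_mem_coboundaries` (integer form). -/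
theorem core_identity_int {A : Type*} [AddCommGroup A]
    (ζ α β : A) (n d d' s t m m' I I' I'' J J' J'' e e' : ℤ)
    (hζ : n • ζ = 0) (hi : I'' + d * e = I + I') (hj : J'' + d' * e' = J + J')
    (hm : n * m = s * d) (hm' : n * m' = t * d') :
    (t * J') • (α + (s * I) • ζ) + (s * I') • (β + (t * J) • ζ) + (s * t * I' * J') • ζ
      - ((t * J'') • α + (s * I'') • β + (s * t * I'' * J'') • ζ)
      + ((t * J) • α + (s * I) • β + (s * t * I * J) • ζ)
    = (m * e) • (n • β) + (m' * e') • (n • α) := by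
  obtain rfl : I' = I'' + d * e - I := by linarith
  obtain rfl : J' = J'' + d' * e' - J := by linarith
  linear_combination (norm := module)
    (m * e * t * J'' + m' * e' * s * I'' + n * m * m' * e * e') • hζ
      + (-e' * hm') • α + (-e * hm) • β
      + (-(e * t * J'') * hm - (e' * s * I'') * hm' - (e * e' * s * d) * hm'
          - (e * e' * n * m') * hm) • ζ

/-- Exponent bookkeeping for `kummer_sum_mem_coboundaries` (natural number form). -/
theorem core_identity_nat {A : Type*} [AddCommGroup A]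
    (ζ α β : A) (n d d' s t m m' I I' I'' J J' J'' e e' : ℕ)
    (hζ : n • ζ = 0) (hi : I'' + d * e = I + I') (hj : J'' + d' * e' = J + J')
    (hm : n * m = s * d) (hm' : n * m' = t * d') :
    (t * J') • (α + (s * I) • ζ) + (s * I') • (β + (t * J) • ζ) + (s * t * I' * J') • ζ
      - ((t * J'') • α + (s * I'') • β + (s * t * I'' * J'') • ζ)
      + ((t * J) • α + (s * I) • β + (s * t * I * J) • ζ)
    = (m * e) • (n • β) + (m' * e') • (n • α) := by
  have h := core_identity_int ζ α β (n : ℤ) d d' s t m m' I I' I'' J J' J'' e e'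
    (by rw [natCast_zsmul]; exact hζ) (by exact_mod_cast hi) (by exact_mod_cast hj)
    (by exact_mod_cast hm) (by exact_mod_cast hm')
  simp only [← Nat.cast_mul, natCast_zsmul] at h
  exact h

section CycExp

variable {G : Type*} [Group G] [Finite G]

theorem exists_pow_lt_orderOf (σ g : G) (h : g ∈ Subgroup.zpowers σ) :
    ∃ k, k < orderOf σ ∧ σ ^ k = g := by
  obtain ⟨z, rfl⟩ := Subgroup.mem_zpowers_iff.1 h
  have hpos : (0 : ℤ) < orderOf σ := by exact_mod_cast orderOf_pos σ
  refine ⟨(z % (orderOf σ : ℤ)).toNat, ?_, ?_⟩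
  · have h1 := Int.emod_lt_of_pos z hpos
    have h0 := Int.emod_nonneg z hpos.ne'
    omega
  · rw [← zpow_natCast, Int.toNat_of_nonneg (Int.emod_nonneg z hpos.ne'), zpow_mod_orderOf]

/-- The exponent `k < orderOf σ` with `σ ^ k = g`, in a finite group generated by `σ`. -/
noncomputable def cexp (σ : G) (hσ : ∀ g, g ∈ Subgroup.zpowers σ) (g : G) : ℕ :=
  (exists_pow_lt_orderOf σ g (hσ g)).choose

theorem cexp_lt (σ : G) (hσ : ∀ g, g ∈ Subgroup.zpowers σ) (g : G) :
    cexp σ hσ g < orderOf σ :=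
  (exists_pow_lt_orderOf σ g (hσ g)).choose_spec.1

theorem pow_cexp (σ : G) (hσ : ∀ g, g ∈ Subgroup.zpowers σ) (g : G) :
    σ ^ cexp σ hσ g = g :=
  (exists_pow_lt_orderOf σ g (hσ g)).choose_spec.2

theorem cexp_eq_of_pow_eq (σ : G) (hσ : ∀ g, g ∈ Subgroup.zpowers σ) (g : G) (k : ℕ)
    (hk : k < orderOf σ) (h : σ ^ k = g) : cexp σ hσ g = k := by
  have h1 : σ ^ cexp σ hσ g = σ ^ k := by rw [pow_cexp, h]
  have h2 := pow_eq_pow_iff_modEq.1 h1
  exact (Nat.ModEq.eq_of_lt_of_lt h2 (cexp_lt σ hσ g) hk)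

theorem cexp_pow (σ : G) (hσ : ∀ g, g ∈ Subgroup.zpowers σ) (k : ℕ) (hk : k < orderOf σ) :
    cexp σ hσ (σ ^ k) = k :=
  cexp_eq_of_pow_eq σ hσ _ k hk rfl

theorem cexp_mul (σ : G) (hσ : ∀ g, g ∈ Subgroup.zpowers σ) (g h : G) :
    cexp σ hσ (g * h) = (cexp σ hσ g + cexp σ hσ h) % orderOf σ := by
  apply cexp_eq_of_pow_eq
  · exact Nat.mod_lt _ (orderOf_pos σ)
  · rw [pow_mod_orderOf, pow_add, pow_cexp, pow_cexp]

theorem cexp_add_div_le_one (σ : G) (hσ : ∀ g, g ∈ Subgroup.zpowers σ) (g h : G) :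
    (cexp σ hσ g + cexp σ hσ h) / orderOf σ ≤ 1 := by
  have h1 := cexp_lt σ hσ g
  have h2 := cexp_lt σ hσ h
  have : (cexp σ hσ g + cexp σ hσ h) / orderOf σ < 2 := by
    rw [Nat.div_lt_iff_lt_mul (orderOf_pos σ)]
    omega
  omega

end CycExp

section RepLevel

variable {G : Type} [Group G]

/-- **Explicit coboundary** behind the skew-symmetry of the Kummer symbol. -/
theorem kummer_sum_mem_coboundaries (A : Rep.{0} ℤ G)
    (ζ α β : A.V) (n d d' s t m m' : ℕ) (i j : G → ℕ)
    (hζn : n • ζ = 0)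
    (hα : ∀ g, A.ρ g α = α + (s * i g) • ζ) (hβ : ∀ g, A.ρ g β = β + (t * j g) • ζ)
    (hζ : ∀ g, A.ρ g ζ = ζ)
    (hi : ∀ g h, i (g * h) + d * ((i g + i h) / d) = i g + i h)
    (hj : ∀ g h, j (g * h) + d' * ((j g + j h) / d') = j g + j h)
    (hm : n * m = s * d) (hm' : n * m' = t * d')
    (F : G × G → A.V)
    (hF : ∀ g h, F (g, h) =
      (m * ((i g + i h) / d)) • (n • β) + (m' * ((j g + j h) / d')) • (n • α)) :
    F ∈ coboundaries₂ A := by
  refine ⟨fun g => (t * j g) • α + (s * i g) • β + (s * t * i g * j g) • ζ, ?_⟩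
  funext ⟨g, h⟩
  rw [hF]
  simp only [d₁₂_hom_apply, map_add, map_nsmul, hα, hβ, hζ]
  exact core_identity_nat ζ α β n d d' s t m m' (i g) (i h) (i (g * h)) (j g) (j h) (j (g * h))
    _ _ hζn (hi g h) (hj g h) hm hm'

end RepLevel

end Fermat.Agent.S55.G.Rec.H541
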