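import Mathlib

/-!
# S55 / layer G / block REC (helper541): the local cyclotomic extension at `r`

Pure algebra on a Henselian local domain `B` of residue characteristic `r` containing a
primitive `r`-th root of unity `ζ` (e.g. the ring of integers of `ℚ_r(ζ_r)`).

* `natCast_eq_prod_one_sub_pow`: `r = ∏_{c=1}^{r-1} (1 - ζ^c)`;
* `zeta_sub_one_mem`: `ζ - 1 ∈ 𝔪`;
* `exists_unit_factor`: `-r = (1 - ζ)^(r-1) * u` with `u ≡ 1 mod 𝔪`;
* `exists_root_of_sub_one_mem`: Hensel: a `1`-unit is an `m`-th power if `m` is a unit of `B`;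
* `exists_kummer_generator`: `∃ α, α^(r-1) = -r` (so `ℚ_r(ζ_r) = ℚ_r((-r)^{1/(r-1)})`), with the
  Galois action: if `σ ζ = ζ^c` then `σ α = τ α` with `τ^(r-1) = 1`, `τ ≡ c mod 𝔪`
  (`τ` = Teichmüller representative of `c`);
* `eq_of_pow_eq_one_of_sub_mem`: roots of unity of order prime to the residue characteristic are
  determined by their residue class.
-/

set_option autoImplicit false

namespace Fermat.Agent.S55.G.Rec.H541

open Polynomial IsLocalRing

section Prod

variable {B : Type*} [CommRing B] [IsDomain B]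

/-- `r = ∏_{c=1}^{r-1} (1 - ζ^c)` for a primitive `r`-th root of unity (any `r ≥ 1`). -/
theorem natCast_eq_prod_one_sub_pow (r : ℕ) (hr : 0 < r) (ζ : B) (hζ : IsPrimitiveRoot ζ r) :
    (r : B) = ∏ i ∈ Finset.range (r - 1), (1 - ζ ^ (i + 1)) := by
  have hX := X_pow_sub_C_eq_prod hζ hr (one_pow r)
  obtain ⟨k, rfl⟩ : ∃ k, r = k + 1 := ⟨r - 1, by omega⟩
  rw [Finset.prod_range_succ', pow_zero, one_mul, map_one] at hX
  have h2 : (∑ i ∈ Finset.range (k + 1), (X : B[X]) ^ i) * (X - 1) = X ^ (k + 1) - 1 :=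
    geom_sum_mul X (k + 1)
  rw [← h2] at hX
  have hne : (X - 1 : B[X]) ≠ 0 := by
    have := X_sub_C_ne_zero (1 : B)
    simpa using this
  have h3 := mul_right_cancel₀ hne hX
  have h4 := congrArg (eval 1) h3
  simp only [eval_finsetSum, eval_pow, eval_X, one_pow, Finset.sum_const, Finset.card_range,
    nsmul_eq_mul, mul_one, eval_prod, eval_sub, eval_C] at h4
  simpa using h4

end Prod

section Local

variable {B : Type*} [CommRing B] [IsLocalRing B]

/-- Roots of unity of order `m` (a unit of `B`) are determined by their residue class. -/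
theorem eq_of_pow_eq_one_of_sub_mem (m : ℕ) (hm : IsUnit (m : B)) (x y : B)
    (hx : x ^ m = 1) (hy : y ^ m = 1) (hxy : x - y ∈ maximalIdeal B) : x = y := by
  rcases Nat.eq_zero_or_pos m with rfl | hmpos
  · simp at hm
  set z := x * y ^ (m - 1) with hz
  have hyy : y * y ^ (m - 1) = 1 := by rw [← pow_succ', Nat.sub_add_cancel hmpos, hy]
  have hzm : z ^ m = 1 := by
    rw [hz, mul_pow, hx, one_mul, ← pow_mul, mul_comm, pow_mul, hy, one_pow]
  have hz1 : z - 1 ∈ maximalIdeal B := by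
    have : z - 1 = (x - y) * y ^ (m - 1) := by rw [sub_mul, hyy]
    rw [this]
    exact Ideal.mul_mem_right _ _ hxy
  have hgs : (∑ i ∈ Finset.range m, z ^ i) * (z - 1) = 0 := by
    rw [geom_sum_mul, hzm, sub_self]
  have hres : residue B (∑ i ∈ Finset.range m, z ^ i) = residue B (m : B) := by
    have hz1' : residue B z = 1 := by
      have := (residue_eq_zero_iff (z - 1)).2 hz1
      rwa [map_sub, map_one, sub_eq_zero] at this
    simp [map_sum, map_pow, hz1']
  have hu : IsUnit (∑ i ∈ Finset.range m, z ^ i) := by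
    rw [← residue_ne_zero_iff_isUnit, hres, residue_ne_zero_iff_isUnit]
    exact hm
  have hz0 : z - 1 = 0 := (hu.mul_right_eq_zero).1 hgs
  have hz' : x * y ^ (m - 1) = y * y ^ (m - 1) := by
    rw [hyy]
    exact sub_eq_zero.1 hz0
  have huy : IsUnit (y ^ (m - 1)) := IsUnit.of_mul_eq_one (a := y ^ (m - 1)) (b := y) (by
    rw [mul_comm]; exact hyy)
  exact huy.mul_right_cancel hz'

end Local


section Henselian

variable {B : Type*} [CommRing B] [HenselianLocalRing B]

/-- Hensel: if `m` is a unit of `B` and `u ≡ 1 mod 𝔪`, then `u = w^m` with `w ≡ 1 mod 𝔪`. -/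
theorem exists_root_of_sub_one_mem (m : ℕ) (hm : IsUnit (m : B)) (u : B)
    (hu : u - 1 ∈ maximalIdeal B) : ∃ w : B, w ^ m = u ∧ w - 1 ∈ maximalIdeal B := by
  rcases Nat.eq_zero_or_pos m with rfl | hmpos
  · simp at hm
  have hmon : (X ^ m - C u : B[X]).Monic := monic_X_pow_sub_C u hmpos.ne'
  have h1 : (X ^ m - C u : B[X]).eval 1 ∈ maximalIdeal B := by
    simp only [eval_sub, eval_pow, eval_X, one_pow, eval_C]
    have : (1 : B) - u = -(u - 1) := by ring
    rw [this]
    exact (Ideal.neg_mem_iff _).2 hu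
  have h2 : IsUnit ((X ^ m - C u : B[X]).derivative.eval 1) := by
    simp only [derivative_sub, derivative_X_pow, derivative_C, sub_zero, eval_mul, eval_C,
      eval_pow, eval_X, one_pow, mul_one]
    exact hm
  obtain ⟨w, hw, hw1⟩ := HenselianLocalRing.is_henselian _ hmon 1 h1 h2
  refine ⟨w, ?_, hw1⟩
  have : w ^ m - u = 0 := by simpa [IsRoot] using hw
  exact sub_eq_zero.1 this

end Henselian

section Cyclotomic

variable {B : Type*} [CommRing B] [IsDomain B] [HenselianLocalRing B]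

omit [IsDomain B] in
/-- `ζ ≡ 1` modulo the maximal ideal, in residue characteristic `r`. -/
theorem zeta_sub_one_mem (r : ℕ) (hr : r.Prime) (hrB : (r : B) ∈ maximalIdeal B) (ζ : B)
    (hζ : ζ ^ r = 1) : ζ - 1 ∈ maximalIdeal B := by
  have h0 : ((r : ℕ) : ResidueField B) = 0 := by
    have := (residue_eq_zero_iff (r : B)).2 hrB
    simpa using this
  have : Fact r.Prime := ⟨hr⟩
  have : CharP (ResidueField B) r := by
    have := CharP.ringChar_of_prime_eq_zero hr h0
    exact this ▸ ringChar.charP _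
  rw [← residue_eq_zero_iff, map_sub, map_one]
  have h1 : (residue B ζ - 1) ^ r = 0 := by
    rw [sub_pow_char, one_pow, ← map_pow, hζ, map_one, sub_self]
  exact pow_eq_zero_iff hr.ne_zero |>.1 h1

omit [IsDomain B] in
/-- Wilson's lemma in the residue field. -/
theorem residue_prod_geom (r : ℕ) (hr : r.Prime) (hrB : (r : B) ∈ maximalIdeal B) (ζ : B)
    (hζ : ζ ^ r = 1) :
    residue B (∏ i ∈ Finset.range (r - 1), ∑ j ∈ Finset.range (i + 1), ζ ^ j) = -1 := by
  have h0 : ((r : ℕ) : ResidueField B) = 0 := by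
    have := (residue_eq_zero_iff (r : B)).2 hrB
    simpa using this
  have : Fact r.Prime := ⟨hr⟩
  have : CharP (ResidueField B) r := by
    have := CharP.ringChar_of_prime_eq_zero hr h0
    exact this ▸ ringChar.charP _
  have hz1 : residue B ζ = 1 := by
    have := (residue_eq_zero_iff (ζ - 1)).2 (zeta_sub_one_mem r hr hrB ζ hζ)
    rwa [map_sub, map_one, sub_eq_zero] at this
  have h1 : residue B (∏ i ∈ Finset.range (r - 1), ∑ j ∈ Finset.range (i + 1), ζ ^ j) =
      (((r - 1).factorial : ℕ) : ResidueField B) := by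
    rw [map_prod, ← Finset.prod_range_add_one_eq_factorial, Nat.cast_prod]
    refine Finset.prod_congr rfl (fun i _ => ?_)
    simp [map_sum, map_pow, hz1]
  rw [h1]
  have hw := ZMod.wilsons_lemma (p := r)
  have h2 : (ZMod.castHom (dvd_refl r) (ResidueField B)) (((r - 1).factorial : ℕ) : ZMod r) =
      (((r - 1).factorial : ℕ) : ResidueField B) := map_natCast _ _
  rw [← h2, hw, map_neg, map_one]

/-- `-r = (1 - ζ)^(r-1) * u` with `u ≡ 1 mod 𝔪`. -/
theorem exists_unit_factor (r : ℕ) (hr : r.Prime) (hrB : (r : B) ∈ maximalIdeal B) (ζ : B)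
    (hζ : IsPrimitiveRoot ζ r) :
    ∃ u : B, -(r : B) = (1 - ζ) ^ (r - 1) * u ∧ u - 1 ∈ maximalIdeal B := by
  refine ⟨-(∏ i ∈ Finset.range (r - 1), ∑ j ∈ Finset.range (i + 1), ζ ^ j), ?_, ?_⟩
  · rw [natCast_eq_prod_one_sub_pow r hr.pos ζ hζ]
    have : ∀ i : ℕ, (1 - ζ ^ (i + 1)) = (1 - ζ) * ∑ j ∈ Finset.range (i + 1), ζ ^ j := by
      intro i
      rw [mul_neg_geom_sum]
    simp only [this, Finset.prod_mul_distrib, Finset.prod_const, Finset.card_range]
    ring
  · rw [← residue_eq_zero_iff, map_sub, map_neg, residue_prod_geom r hr hrB ζ hζ.pow_eq_one,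
      neg_neg, map_one, sub_self]

/-- **Kummer generator of the local cyclotomic extension.**  There is `α = (1 - ζ) w`,
`w ≡ 1 mod 𝔪`, with `α^(r-1) = -r`. -/
theorem exists_kummer_generator (r : ℕ) (hr : r.Prime) (hrB : (r : B) ∈ maximalIdeal B) (ζ : B)
    (hζ : IsPrimitiveRoot ζ r) :
    ∃ w : B, w - 1 ∈ maximalIdeal B ∧ ((1 - ζ) * w) ^ (r - 1) = -(r : B) := by
  obtain ⟨u, hu, hu1⟩ := exists_unit_factor r hr hrB ζ hζ
  have hm : IsUnit (((r - 1 : ℕ)) : B) := by
    rw [← residue_ne_zero_iff_isUnit]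
    have h0 : ((r : ℕ) : ResidueField B) = 0 := by
      have := (residue_eq_zero_iff (r : B)).2 hrB
      simpa using this
    have h1 : residue B (((r - 1 : ℕ)) : B) = -1 := by
      have : ((r - 1 : ℕ) : B) = (r : B) - 1 := by
        rw [Nat.cast_sub hr.one_le, Nat.cast_one]
      rw [this, map_sub, map_natCast, h0, zero_sub, map_one]
    rw [h1]
    exact neg_ne_zero.2 one_ne_zero
  obtain ⟨w, hw, hw1⟩ := exists_root_of_sub_one_mem (r - 1) hm u hu1
  exact ⟨w, hw1, by rw [mul_pow, hw, hu]⟩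

/-- **Galois action on the Kummer generator.**  If `α = (1 - ζ) w` with `w ≡ 1 mod 𝔪`,
`α^(r-1) = -r ≠ 0`, and `σ` is a ring automorphism of `B` with `σ ζ = ζ^c`, then `σ α = τ α` with
`τ^(r-1) = 1` and `τ ≡ c mod 𝔪`. -/
theorem kummer_generator_action (r : ℕ) (hr0 : (r : B) ≠ 0) (ζ w : B)
    (hw1 : w - 1 ∈ maximalIdeal B) (hα : ((1 - ζ) * w) ^ (r - 1) = -(r : B))
    (hζ1 : ζ - 1 ∈ maximalIdeal B)
    (σ : B ≃+* B) (c : ℕ) (hσ : σ ζ = ζ ^ c) :
    ∃ τ : B, τ ^ (r - 1) = 1 ∧ τ - (c : B) ∈ maximalIdeal B ∧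
      σ ((1 - ζ) * w) = τ * ((1 - ζ) * w) := by
  have hwu : IsUnit w := by
    rw [← residue_ne_zero_iff_isUnit]
    have := (residue_eq_zero_iff (w - 1)).2 hw1
    rw [map_sub, map_one, sub_eq_zero] at this
    rw [this]
    exact one_ne_zero
  obtain ⟨wi, hwi⟩ := hwu.exists_right_inv
  have hσw : σ w - 1 ∈ maximalIdeal B := by
    have h1 : σ w - 1 = σ (w - 1) := by rw [map_sub, map_one]
    rw [h1, mem_maximalIdeal, mem_nonunits_iff]
    intro hu
    have : IsUnit (w - 1) := by
      have := hu.map σ.symm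
      simpa using this
    exact (mem_nonunits_iff.1 ((mem_maximalIdeal _).1 hw1)) this
  set g : B := ∑ j ∈ Finset.range c, ζ ^ j with hg
  have hgeom : 1 - ζ ^ c = (1 - ζ) * g := by rw [hg, mul_neg_geom_sum]
  refine ⟨g * σ w * wi, ?_, ?_, ?_⟩
  · have e1 : σ ((1 - ζ) * w) = (g * σ w * wi) * ((1 - ζ) * w) := by
      rw [map_mul, map_sub, map_one, hσ, hgeom]
      have : g * σ w * wi * ((1 - ζ) * w) = (1 - ζ) * g * σ w * (w * wi) := by ring
      rw [this, hwi, mul_one]
    have e2 : (σ ((1 - ζ) * w)) ^ (r - 1) = -(r : B) := by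
      rw [← map_pow, hα, map_neg, map_natCast]
    rw [e1, mul_pow, hα] at e2
    have hne : -(r : B) ≠ 0 := neg_ne_zero.2 hr0
    have e3 : (g * σ w * wi) ^ (r - 1) * -(r : B) = 1 * -(r : B) := by rw [e2, one_mul]
    exact mul_right_cancel₀ hne e3
  · rw [← residue_eq_zero_iff, map_sub, map_mul, map_mul, map_natCast]
    have hz1 : residue B ζ = 1 := by
      have := (residue_eq_zero_iff (ζ - 1)).2 hζ1
      rwa [map_sub, map_one, sub_eq_zero] at this
    have hw1' : residue B w = 1 := by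
      have := (residue_eq_zero_iff (w - 1)).2 hw1
      rwa [map_sub, map_one, sub_eq_zero] at this
    have hσw' : residue B (σ w) = 1 := by
      have := (residue_eq_zero_iff (σ w - 1)).2 hσw
      rwa [map_sub, map_one, sub_eq_zero] at this
    have hwi' : residue B wi = 1 := by
      have := congrArg (residue B) hwi
      rwa [map_mul, hw1', one_mul, map_one] at this
    have hg' : residue B g = (c : ResidueField B) := by
      simp [hg, map_sum, map_pow, hz1]
    rw [hg', hσw', hwi', mul_one, mul_one, sub_self]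
  · rw [map_mul, map_sub, map_one, hσ, hgeom]
    have : g * σ w * wi * ((1 - ζ) * w) = (1 - ζ) * g * σ w * (w * wi) := by ring
    rw [this, hwi, mul_one]

end Cyclotomic


section Complete

/-- A local ring which is complete for its maximal ideal is a Henselian local ring. -/
theorem henselianLocalRing_of_isAdicComplete (R : Type*) [CommRing R] [IsLocalRing R]
    [IsAdicComplete (maximalIdeal R) R] : HenselianLocalRing R where
  is_henselian f hf a₀ h₁ h₂ := by
    refine HenselianRing.is_henselian (I := maximalIdeal R) f hf a₀ h₁ ?_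
    exact h₂.map (Ideal.Quotient.mk (maximalIdeal R))

end Complete

section Layer

variable {B : Type*} [CommRing B] [IsDomain B] [HenselianLocalRing B]

/-- **The degree-`n` layer.**  `n m = r - 1`.  There is `α ∈ B` with `αⁿ = -r` such that every
ring automorphism `σ` of `B` with `σ ζ = ζ^c` satisfies `σ α = τ^m α` where `τ^(r-1) = 1` and
`τ ≡ c mod 𝔪` (so `τ^m` is an `n`-th root of unity, `≡ c^m = c^((r-1)/n)`). -/
theorem exists_kummer_generator_layer (r n m : ℕ) (hr : r.Prime) (hnm : n * m = r - 1)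
    (hrB : (r : B) ∈ maximalIdeal B) (hr0 : (r : B) ≠ 0) (ζ : B) (hζ : IsPrimitiveRoot ζ r) :
    ∃ α : B, α ^ n = -(r : B) ∧
      ∀ (σ : B ≃+* B) (c : ℕ), σ ζ = ζ ^ c →
        ∃ τ : B, τ ^ (r - 1) = 1 ∧ τ - (c : B) ∈ maximalIdeal B ∧ σ α = τ ^ m * α := by
  obtain ⟨w, hw1, hα⟩ := exists_kummer_generator r hr hrB ζ hζ
  refine ⟨((1 - ζ) * w) ^ m, ?_, ?_⟩
  · rw [← pow_mul, Nat.mul_comm m n, hnm, hα]
  · intro σ c hσ
    obtain ⟨τ, hτ1, hτc, hτα⟩ := kummer_generator_action r hr0 ζ w hw1 hα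
      (zeta_sub_one_mem r hr hrB ζ hζ.pow_eq_one) σ c hσ
    exact ⟨τ, hτ1, hτc, by rw [map_pow, hτα, mul_pow]⟩

end Layer

end Fermat.Agent.S55.G.Rec.H541
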