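import Fermat.Agent.S55.G.Rec.Spec2
import Fermat.Agent.S55.BLocal.Range

/-!
# S55 / layer G / block REC (helper541): Frobenius lifts in `Gal(ℚ̄_q / K_v)`

For a closed subgroup `V ≤ Gal(ℚ̄_q/ℚ_q)` and `f` such that `x ^ (q ^ f) ≡ x` modulo the maximal
ideal for every integral `x` of the fixed field of `V`, there is `φ ∈ V` inducing
`x ↦ x ^ (q ^ f)` on the residue field of `ℚ̄_q`.
-/

set_option autoImplicit false
set_option linter.style.haveILetI false

noncomputable section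

namespace Fermat.Agent.S55.G.Rec.H541

open scoped Pointwise

variable (q : ℕ) [Fact q.Prime]

local notation "Gq" => (PadicAlgCl q ≃ₐ[ℚ_[q]] PadicAlgCl q)

/-- The unit ball of `ℚ̄_q`. -/
def ballL : Subring (PadicAlgCl q) where
  carrier := {x | ‖x‖ ≤ 1}
  mul_mem' {a b} ha hb := by
    show ‖a * b‖ ≤ 1
    rw [norm_mul]
    exact mul_le_one₀ ha (norm_nonneg b) hb
  one_mem' := by
    show ‖(1 : PadicAlgCl q)‖ ≤ 1
    rw [norm_one]
  add_mem' {a b} ha hb := by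
    show ‖a + b‖ ≤ 1
    exact (IsUltrametricDist.norm_add_le_max a b).trans (max_le ha hb)
  zero_mem' := by
    show ‖(0 : PadicAlgCl q)‖ ≤ 1
    rw [norm_zero]
    exact zero_le_one
  neg_mem' {a} ha := by
    show ‖-a‖ ≤ 1
    rw [norm_neg]
    exact ha

variable {q} in
lemma mem_ballL {x : PadicAlgCl q} : x ∈ ballL q ↔ ‖x‖ ≤ 1 := Iff.rfl

variable {q} in
lemma norm_algEquiv_apply (τ : Gq) (x : PadicAlgCl q) : ‖τ x‖ = ‖x‖ :=
  congrArg NNReal.toReal (nnnorm_padicAlgCl_algEquiv q τ x)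

instance isInvariantSubring_ballL (V : Subgroup Gq) : IsInvariantSubring ↥V (ballL q) where
  smul_mem m {x} hx := by
    show ‖(m : Gq) x‖ ≤ 1
    rw [norm_algEquiv_apply]
    exact hx

variable {q} in
lemma coe_smul_ballL (V : Subgroup Gq) (g : ↥V) (b : ↥(ballL q)) :
    ((g • b : ↥(ballL q)) : PadicAlgCl q) = (g : Gq) (b : PadicAlgCl q) := rfl

/-- The maximal ideal of the unit ball. -/
def maxIdealL : Ideal ↥(ballL q) where
  carrier := {x | ‖(x : PadicAlgCl q)‖ < 1}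
  add_mem' {a b} ha hb := by
    show ‖((a + b : ↥(ballL q)) : PadicAlgCl q)‖ < 1
    exact (IsUltrametricDist.norm_add_le_max (a : PadicAlgCl q) b).trans_lt (max_lt ha hb)
  zero_mem' := by
    show ‖((0 : ↥(ballL q)) : PadicAlgCl q)‖ < 1
    simp
  smul_mem' c x hx := by
    show ‖((c * x : ↥(ballL q)) : PadicAlgCl q)‖ < 1
    rw [Subring.coe_mul, norm_mul]
    calc ‖(c : PadicAlgCl q)‖ * ‖(x : PadicAlgCl q)‖ ≤ 1 * ‖(x : PadicAlgCl q)‖ :=
          mul_le_mul_of_nonneg_right c.2 (norm_nonneg _)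
      _ < 1 := by rw [one_mul]; exact hx

variable {q} in
lemma mem_maxIdealL {x : ↥(ballL q)} : x ∈ maxIdealL q ↔ ‖(x : PadicAlgCl q)‖ < 1 := Iff.rfl

instance maxIdealL_isPrime : (maxIdealL q).IsPrime where
  ne_top' := by
    intro h
    have h1 : (1 : ↥(ballL q)) ∈ maxIdealL q := h ▸ Submodule.mem_top
    rw [mem_maxIdealL] at h1
    simp at h1
  mem_or_mem' {x y} hxy := by
    rw [mem_maxIdealL] at hxy ⊢
    rw [mem_maxIdealL]
    by_contra hcon
    push Not at hcon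
    have hx : ‖(x : PadicAlgCl q)‖ = 1 := le_antisymm x.2 hcon.1
    have hy : ‖(y : PadicAlgCl q)‖ = 1 := le_antisymm y.2 hcon.2
    rw [Subring.coe_mul, norm_mul, hx, hy, one_mul] at hxy
    exact lt_irrefl _ hxy

lemma natCast_mem_maxIdealL : ((q : ℕ) : ↥(ballL q)) ∈ maxIdealL q := by
  rw [mem_maxIdealL]
  have h1 : (((q : ℕ) : ↥(ballL q)) : PadicAlgCl q) = ((q : ℚ_[q]) : PadicAlgCl q) := by
    simp
  rw [h1]
  have h2 : ((q : ℚ_[q]) : PadicAlgCl q) = algebraMap ℚ_[q] (PadicAlgCl q) (q : ℚ_[q]) := by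
    simp
  rw [h2, PadicAlgCl.norm_extends, Padic.norm_p]
  have hq : (1 : ℝ) < q := by exact_mod_cast (Fact.out : q.Prime).one_lt
  exact inv_lt_one_of_one_lt₀ hq

/-- Point stabilisers are open in the Krull topology. -/
lemma isOpen_setOf_apply_eq (x y : PadicAlgCl q) : IsOpen {g : Gq | g x = y} := by
  rw [isOpen_iff_mem_nhds]
  intro g hg
  let E : IntermediateField ℚ_[q] (PadicAlgCl q) := IntermediateField.adjoin ℚ_[q] {x}
  haveI : FiniteDimensional ℚ_[q] E :=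
    IntermediateField.adjoin.finiteDimensional (Algebra.IsIntegral.isIntegral _)
  have hopen : IsOpen (g • (E.fixingSubgroup : Set Gq)) := (E.fixingSubgroup_isOpen).smul g
  refine Filter.mem_of_superset (hopen.mem_nhds ⟨1, one_mem _, by simp⟩) ?_
  rintro _ ⟨h, hh, rfl⟩
  simp only [Set.mem_ofPred_eq] at hg ⊢
  have hb : h x = x :=
    (IntermediateField.mem_fixingSubgroup_iff E h).mp hh x
      (IntermediateField.subset_adjoin ℚ_[q] _ (Set.mem_singleton _))
  show (g * h) x = y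
  rw [AlgEquiv.mul_apply, hb, hg]

variable {q} in
/-- An open subgroup (in the sense of `IsOpenL`) is open in the Krull topology. -/
lemma isOpen_of_isOpenL {V : Subgroup Gq} (hV : IsOpenL q V) : IsOpen (V : Set Gq) := by
  obtain ⟨E, hE, hle⟩ := hV
  exact Subgroup.isOpen_mono hle E.fixingSubgroup_isOpen

section Main

variable {q}

/-- **Frobenius lift.**  Let `V` be a closed subgroup of `Gal(ℚ̄_q/ℚ_q)` and `f` such that
`x ^ (q ^ f) ≡ x` modulo the maximal ideal for all integral `x` fixed by `V`.  Then some `φ ∈ V`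
induces `x ↦ x ^ (q ^ f)` on the residue field of `ℚ̄_q`. -/
theorem exists_frobenius_lift_of_isClosed (V : Subgroup Gq) (hV : IsClosed (V : Set Gq)) (f : ℕ)
    (hf : ∀ x : PadicAlgCl q, IsFixedBy q V x → ‖x‖ ≤ 1 → ‖x ^ (q ^ f) - x‖ < 1) :
    ∃ φ ∈ V, ∀ x : PadicAlgCl q, ‖x‖ ≤ 1 → ‖φ x - x ^ (q ^ f)‖ < 1 := by
  haveI := BLocal.isGalois_padicAlgCl q
  haveI : CompactSpace ↥V := isCompact_iff_compactSpace.1 hV.isCompact
  letI : TopologicalSpace ↥(ballL q) := ⊥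
  haveI : DiscreteTopology ↥(ballL q) := ⟨rfl⟩
  haveI : ContinuousSMul ↥V ↥(ballL q) := by
    refine ⟨?_⟩
    rw [continuous_prod_of_discrete_right]
    intro b
    rw [continuous_discrete_rng]
    intro c
    have h := (isOpen_setOf_apply_eq q (b : PadicAlgCl q) (c : PadicAlgCl q)).preimage
      (continuous_subtype_val (p := fun g : Gq => g ∈ V))
    convert h using 1
    ext g
    simp only [Set.mem_preimage, Set.mem_singleton_iff, Set.mem_ofPred_eq, Subtype.ext_iff,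
      coe_smul_ballL]
  let Q : Ideal ↥(ballL q) := maxIdealL q
  haveI hQp : Q.IsPrime := maxIdealL_isPrime q
  haveI : Algebra.IsInvariant ↥(FixedPoints.subring ↥(ballL q) ↥V) ↥(ballL q) ↥V :=
    ⟨fun b hb => ⟨⟨b, hb⟩, rfl⟩⟩
  let P : Ideal ↥(FixedPoints.subring ↥(ballL q) ↥V) :=
    Q.under ↥(FixedPoints.subring ↥(ballL q) ↥V)
  haveI hlies : Q.LiesOver P := ⟨rfl⟩
  haveI : IsDomain (↥(ballL q) ⧸ Q) := Ideal.Quotient.isDomain Q
  have hzero : ((q : ℕ) : ↥(ballL q) ⧸ Q) = 0 := by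
    have : (Ideal.Quotient.mk Q) ((q : ℕ) : ↥(ballL q)) = 0 :=
      Ideal.Quotient.eq_zero_iff_mem.mpr (natCast_mem_maxIdealL q)
    simpa using this
  haveI hchar : CharP (↥(ballL q) ⧸ Q) q :=
    (CharP.charP_iff_prime_eq_zero (Fact.out : q.Prime)).mpr hzero
  -- the iterated Frobenius as an algebra automorphism
  let fr : (↥(ballL q) ⧸ Q) →ₐ[↥(FixedPoints.subring ↥(ballL q) ↥V) ⧸ P] (↥(ballL q) ⧸ Q) :=
    { toRingHom := iterateFrobenius (↥(ballL q) ⧸ Q) q f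
      commutes' := by
        intro y
        obtain ⟨a, rfl⟩ := Ideal.Quotient.mk_surjective y
        show iterateFrobenius _ q f (algebraMap _ _ (Ideal.Quotient.mk P a)) =
          algebraMap _ _ (Ideal.Quotient.mk P a)
        rw [Ideal.Quotient.algebraMap_mk_of_liesOver, iterateFrobenius_def, ← map_pow,
          Ideal.Quotient.eq]
        show ‖(((a : ↥(ballL q)) : PadicAlgCl q)) ^ (q ^ f) - ((a : ↥(ballL q)) : PadicAlgCl q)‖
          < 1
        refine hf _ ?_ (a : ↥(ballL q)).2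
        intro τ hτ
        exact congrArg Subtype.val (a.2 ⟨τ, hτ⟩) }
  have hinj : Function.Injective fr := iterateFrobenius_inj _ q f
  have hsurj : Function.Surjective fr := by
    intro y
    obtain ⟨b, rfl⟩ := Ideal.Quotient.mk_surjective y
    have hpos : 0 < q ^ f := pow_pos (Fact.out : q.Prime).pos f
    obtain ⟨c, hc⟩ := IsAlgClosed.exists_pow_nat_eq (b : PadicAlgCl q) hpos
    have hcn : ‖c‖ ≤ 1 := by
      have h1 : ‖c‖ ^ (q ^ f) ≤ 1 := by
        rw [← norm_pow, hc]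
        exact b.2
      exact (pow_le_one_iff_of_nonneg (norm_nonneg c) hpos.ne').1 h1
    refine ⟨Ideal.Quotient.mk Q ⟨c, hcn⟩, ?_⟩
    show iterateFrobenius _ q f (Ideal.Quotient.mk Q ⟨c, hcn⟩) = _
    rw [iterateFrobenius_def, ← map_pow]
    congr 1
    exact Subtype.ext hc
  let e : (↥(ballL q) ⧸ Q) ≃ₐ[↥(FixedPoints.subring ↥(ballL q) ↥V) ⧸ P] (↥(ballL q) ⧸ Q) :=
    AlgEquiv.ofBijective fr ⟨hinj, hsurj⟩
  obtain ⟨σ, hσ⟩ := Ideal.Quotient.stabilizerHom_surjective_of_profinite (G := ↥V) P Q e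
  refine ⟨(σ.1 : Gq), σ.1.2, fun x hx => ?_⟩
  have h2 := congrArg (fun t => t (Ideal.Quotient.mk Q ⟨x, hx⟩)) hσ
  simp only [Ideal.Quotient.stabilizerHom_apply] at h2
  have h3 : e (Ideal.Quotient.mk Q ⟨x, hx⟩) = Ideal.Quotient.mk Q (⟨x, hx⟩ ^ (q ^ f)) := by
    show iterateFrobenius _ q f (Ideal.Quotient.mk Q ⟨x, hx⟩) = _
    rw [iterateFrobenius_def, map_pow]
  rw [h3, Ideal.Quotient.eq] at h2
  exact h2

/-- **Frobenius lift** for open subgroups. -/
theorem exists_frobenius_lift (V : Subgroup Gq) (hV : IsOpenL q V) (f : ℕ)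
    (hf : ∀ x : PadicAlgCl q, IsFixedBy q V x → ‖x‖ ≤ 1 → ‖x ^ (q ^ f) - x‖ < 1) :
    ∃ φ ∈ V, ∀ x : PadicAlgCl q, ‖x‖ ≤ 1 → ‖φ x - x ^ (q ^ f)‖ < 1 :=
  exists_frobenius_lift_of_isClosed V (Subgroup.isClosed_of_isOpen V (isOpen_of_isOpenL hV)) f hf

end Main

end Fermat.Agent.S55.G.Rec.H541
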