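import Fermat.Agent.S55.G.Rec.H541.LocalFrob
import Fermat.Agent.S55.L.Inst63

/-!
# S55 / layer G / block REC (helper541): residue degree of the fixed field of an open subgroup

* `isFixedBy_mem_of_le`: elements fixed by `V ⊇ Gal(ℚ̄_q/E)` lie in `E`;
* `exists_pow_card_sub_lt`: for `E/ℚ_q` finite there is `m > 0` with `‖x ^ (q ^ m) - x‖ < 1` for
  all integral `x ∈ E`;
* `exists_isResidueDegree`: every open `V` has a residue degree;
* `exists_isFrobenius`: every open `V` has a Frobenius element.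
-/

set_option autoImplicit false
set_option linter.style.haveILetI false

noncomputable section

namespace Fermat.Agent.S55.G.Rec.H541

open Fermat.Agent.S55.G.Rec

variable {q : ℕ} [Fact q.Prime]

local notation "Gq" => (PadicAlgCl q ≃ₐ[ℚ_[q]] PadicAlgCl q)

/-- Elements fixed by a subgroup containing `Gal(ℚ̄_q / E)` lie in `E`. -/
theorem isFixedBy_mem_of_le {V : Subgroup Gq} {E : IntermediateField ℚ_[q] (PadicAlgCl q)}
    (hle : E.fixingSubgroup ≤ V) {x : PadicAlgCl q} (hx : IsFixedBy q V x) : x ∈ E := by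
  haveI := BLocal.isGalois_padicAlgCl q
  have h1 : x ∈ IntermediateField.fixedField E.fixingSubgroup := by
    rintro ⟨τ, hτ⟩
    exact hx τ (hle hτ)
  rwa [InfiniteGalois.fixedField_fixingSubgroup] at h1

/-- Abstract form: a valuation subring with finite residue field which is the unit ball of a
multiplicative function `N` with `N q < 1`. -/
theorem exists_pow_card_sub_lt_aux {E : Type} [Field E] (A : ValuationSubring E)
    [Finite (IsLocalRing.ResidueField A)] (N : E → ℝ) (hN00 : N 0 = 0) (hN1 : N 1 = 1)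
    (hNmul : ∀ x y, N (x * y) = N x * N y) (hN0 : ∀ x, 0 ≤ N x)
    (hA : ∀ x : E, x ∈ A ↔ N x ≤ 1) (hq : N (q : E) < 1) :
    ∃ m : ℕ, 0 < m ∧ ∀ x : E, N x ≤ 1 → N (x ^ (q ^ m) - x) < 1 := by
  -- non-units of `A` have norm `< 1`
  have hnonunit : ∀ y : A, y ∈ IsLocalRing.maximalIdeal A → N (y : E) < 1 := by
    intro y hy
    by_contra hcon
    push Not at hcon
    have hle : N (y : E) ≤ 1 := (hA y).1 y.2
    have h1 : N (y : E) = 1 := le_antisymm hle hcon
    have hy0 : (y : E) ≠ 0 := by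
      intro h0
      rw [h0, hN00] at h1
      exact zero_ne_one h1
    have hinv : ((y : E)⁻¹) ∈ A := by
      rw [hA]
      have h3 := hNmul (y : E) (y : E)⁻¹
      rw [mul_inv_cancel₀ hy0, hN1, h1, one_mul] at h3
      rw [← h3]
    have hunit : IsUnit y := by
      refine IsUnit.of_mul_eq_one ⟨(y : E)⁻¹, hinv⟩ ?_
      apply Subtype.ext
      show (y : E) * (y : E)⁻¹ = 1
      exact mul_inv_cancel₀ hy0
    exact (IsLocalRing.mem_maximalIdeal y).1 hy hunit
  -- the residue field has characteristic `q`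
  have hqmem : ((q : ℕ) : A) ∈ IsLocalRing.maximalIdeal A := by
    rw [IsLocalRing.mem_maximalIdeal]
    intro hu
    obtain ⟨b, hb⟩ := hu.exists_right_inv
    have h1 : N ((((q : ℕ) : A) * b : A) : E) = 1 := by rw [hb]; exact hN1
    have h2 : ((((q : ℕ) : A) * b : A) : E) = (q : E) * (b : E) := rfl
    rw [h2, hNmul] at h1
    have hb1 : N (b : E) ≤ 1 := (hA b).1 b.2
    have hq0 : 0 ≤ N (q : E) := hN0 _
    have hlt : N (q : E) * N (b : E) < 1 :=
      lt_of_le_of_lt (mul_le_of_le_one_right hq0 hb1) hq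
    rw [h1] at hlt
    exact lt_irrefl _ hlt
  have hzero : ((q : ℕ) : IsLocalRing.ResidueField A) = 0 := by
    have h := (IsLocalRing.residue_eq_zero_iff ((q : ℕ) : A)).2 hqmem
    simpa using h
  haveI hchar : CharP (IsLocalRing.ResidueField A) q :=
    (CharP.charP_iff_prime_eq_zero (Fact.out : q.Prime)).mpr hzero
  letI : Fintype (IsLocalRing.ResidueField A) := Fintype.ofFinite _
  obtain ⟨n, -, hn⟩ := FiniteField.card (IsLocalRing.ResidueField A) q
  refine ⟨n, n.pos, fun x hx => ?_⟩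
  have hxA : x ∈ A := (hA _).2 hx
  have hpow : (IsLocalRing.residue A ⟨x, hxA⟩) ^ (q ^ (n : ℕ)) =
      IsLocalRing.residue A ⟨x, hxA⟩ := by
    rw [← hn]
    exact FiniteField.pow_card _
  have hmem : (⟨x, hxA⟩ : A) ^ (q ^ (n : ℕ)) - ⟨x, hxA⟩ ∈
      IsLocalRing.maximalIdeal A := by
    rw [← IsLocalRing.residue_eq_zero_iff, map_sub, map_pow, hpow, sub_self]
  exact hnonunit _ hmem

/-- In a finite extension `E` of `ℚ_q` the residue field is finite: there is `m > 0` with
`x ^ (q ^ m) ≡ x` modulo the maximal ideal for all integral `x ∈ E`. -/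
theorem exists_pow_card_sub_lt (E : IntermediateField ℚ_[q] (PadicAlgCl q))
    [FiniteDimensional ℚ_[q] E] :
    ∃ m : ℕ, 0 < m ∧ ∀ x : PadicAlgCl q, x ∈ E → ‖x‖ ≤ 1 → ‖x ^ (q ^ m) - x‖ < 1 := by
  obtain ⟨A, ⟨-, -, hfin⟩, hA⟩ := L.exists_ringOfIntegers_eq_unitBall63 q E
  haveI := hfin
  have hqn : ‖(((q : ℕ) : ↥E) : PadicAlgCl q)‖ < 1 := by
    have h1 : (((q : ℕ) : ↥E) : PadicAlgCl q) = ((q : ℚ_[q]) : PadicAlgCl q) := by
      simp
    rw [h1, L.norm_natCast_prime63]
    have hq : (1 : ℝ) < q := by exact_mod_cast (Fact.out : q.Prime).one_lt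
    exact inv_lt_one_of_one_lt₀ hq
  obtain ⟨m, hm0, hm⟩ := exists_pow_card_sub_lt_aux (q := q) A
    (fun x : ↥E => ‖(x : PadicAlgCl q)‖) (by simp) (by simp) (fun x y => by simp)
    (fun x => norm_nonneg _) hA hqn
  exact ⟨m, hm0, fun x hxE hx => hm ⟨x, hxE⟩ hx⟩

/-- Every open subgroup has a residue degree. -/
theorem exists_isResidueDegree (V : Subgroup Gq) (hV : IsOpenL q V) :
    ∃ f : ℕ, IsResidueDegree q V f := by
  classical
  obtain ⟨E, hE, hle⟩ := hV
  haveI := hE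
  obtain ⟨m, hm0, hm⟩ := exists_pow_card_sub_lt E
  have hex : ∃ m : ℕ, 0 < m ∧
      ∀ x : PadicAlgCl q, IsFixedBy q V x → ‖x‖ ≤ 1 → ‖x ^ (q ^ m) - x‖ < 1 :=
    ⟨m, hm0, fun x hx hx1 => hm x (isFixedBy_mem_of_le hle hx) hx1⟩
  refine ⟨Nat.find hex, (Nat.find_spec hex).1, (Nat.find_spec hex).2, fun m hm0 hm => ?_⟩
  exact Nat.find_min' hex ⟨hm0, hm⟩

/-- Every open subgroup has a Frobenius element. -/
theorem exists_isFrobenius (V : Subgroup Gq) (hV : IsOpenL q V) :
    ∃ φ : Gq, IsFrobenius q V φ := by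
  obtain ⟨f, hf⟩ := exists_isResidueDegree V hV
  obtain ⟨φ, hφV, hφ⟩ := exists_frobenius_lift V hV f hf.2.1
  exact ⟨φ, hφV, f, hf, hφ⟩

end Fermat.Agent.S55.G.Rec.H541
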