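import Fermat.Agent.S55.G.Rec.H541.LocalResDeg
import Fermat.Agent.S55.G.Rec.RelNormH707
import Fermat.Agent.S55.L.UnrInv.EF717

/-!
# S55 / layer G / block REC, leaf L2 (`LocalStructureSpec`)   (helper541)

`theorem localStructure : LocalStructureSpec`, unconditional.

For an open subgroup `V ≤ Gal(ℚ̄_q/ℚ_q)` with fixed field `K_V`:
* `K_V` is finite over `ℚ_q` of degree `[G : V]` (`finiteDimensional_fixedField`,
  `finrank_fixedField`);
* its unit ball is a complete DVR with finite residue field (layer L, `Inst63`), hence there are a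
  uniformizer `ϖ`, the ramification index `e` and the residue degree `f` with `e f = [G : V]`
  (layer L, `EF717.residueDegree717`), `‖ϖ‖ ^ e = q⁻¹` (`exists_uniformizer_data`);
* a Frobenius element exists (`LocalFrob.exists_frobenius_lift`).
-/

set_option autoImplicit false
set_option linter.style.haveILetI false

noncomputable section

namespace Fermat.Agent.S55.G.Rec.H541

open Fermat.Agent.S55.G.Rec Polynomial

/-! ## Abstract valuation subrings given by a multiplicative function -/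

section Abstract

variable {E : Type} [Field E] (A : ValuationSubring E) (N : E → ℝ)

/-- Elements of the maximal ideal have `N < 1`. -/
theorem normLike_lt_one_of_mem_maximalIdeal (hN00 : N 0 = 0) (hN1 : N 1 = 1)
    (hNmul : ∀ x y, N (x * y) = N x * N y) (hA : ∀ x : E, x ∈ A ↔ N x ≤ 1)
    (y : A) (hy : y ∈ IsLocalRing.maximalIdeal A) : N (y : E) < 1 := by
  by_contra hcon
  push Not at hcon
  have hle : N (y : E) ≤ 1 := (hA y).1 y.2
  have h1 : N (y : E) = 1 := le_antisymm hle hcon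
  have hy0 : (y : E) ≠ 0 := by
    intro h0
    rw [h0, hN00] at h1
    exact zero_ne_one h1
  have hinv : ((y : E)⁻¹) ∈ A := by
    rw [hA]
    have h3 := hNmul (y : E) (y : E)⁻¹
    rw [mul_inv_cancel₀ hy0, hN1, h1, one_mul] at h3
    rw [← h3]
  have hunit : IsUnit y := by
    refine IsUnit.of_mul_eq_one ⟨(y : E)⁻¹, hinv⟩ ?_
    apply Subtype.ext
    show (y : E) * (y : E)⁻¹ = 1
    exact mul_inv_cancel₀ hy0
  exact (IsLocalRing.mem_maximalIdeal y).1 hy hunit

/-- Units have `N = 1`. -/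
theorem normLike_eq_one_of_isUnit (hN1 : N 1 = 1)
    (hNmul : ∀ x y, N (x * y) = N x * N y) (hN0 : ∀ x, 0 ≤ N x)
    (hA : ∀ x : E, x ∈ A ↔ N x ≤ 1)
    (y : A) (hy : IsUnit y) : N (y : E) = 1 := by
  obtain ⟨b, hb⟩ := hy.exists_right_inv
  have h1 : N ((y * b : A) : E) = 1 := by rw [hb]; exact hN1
  have h2 : ((y * b : A) : E) = (y : E) * (b : E) := rfl
  rw [h2, hNmul] at h1
  have hy1 : N (y : E) ≤ 1 := (hA y).1 y.2
  have hb1 : N (b : E) ≤ 1 := (hA b).1 b.2
  by_contra hne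
  have hlt : N (y : E) < 1 := lt_of_le_of_ne hy1 hne
  have : N (y : E) * N (b : E) < 1 := by
    calc N (y : E) * N (b : E) ≤ N (y : E) * 1 := mul_le_mul_of_nonneg_left hb1 (hN0 _)
      _ < 1 := by rw [mul_one]; exact hlt
  rw [h1] at this
  exact lt_irrefl _ this

/-- Elements with `N < 1` lie in the maximal ideal. -/
theorem mem_maximalIdeal_of_normLike_lt_one (hN1 : N 1 = 1)
    (hNmul : ∀ x y, N (x * y) = N x * N y) (hN0 : ∀ x, 0 ≤ N x)
    (hA : ∀ x : E, x ∈ A ↔ N x ≤ 1)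
    (y : A) (hy : N (y : E) < 1) : y ∈ IsLocalRing.maximalIdeal A := by
  rw [IsLocalRing.mem_maximalIdeal]
  intro hu
  have := normLike_eq_one_of_isUnit A N hN1 hNmul hN0 hA y hu
  rw [this] at hy
  exact lt_irrefl _ hy

/-- The residue field of `A` and the function `N`: Frobenius congruence and minimality. -/
theorem normLike_residue (q : ℕ) [Fact q.Prime] (hN00 : N 0 = 0) (hN1 : N 1 = 1)
    (hNmul : ∀ x y, N (x * y) = N x * N y) (hN0 : ∀ x, 0 ≤ N x)
    (hA : ∀ x : E, x ∈ A ↔ N x ≤ 1) (f : ℕ)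
    (hcard : Nat.card (IsLocalRing.ResidueField A) = q ^ f) :
    (∀ x : E, N x ≤ 1 → N (x ^ (q ^ f) - x) < 1) ∧
      ∀ m : ℕ, 0 < m → (∀ x : E, N x ≤ 1 → N (x ^ (q ^ m) - x) < 1) → f ≤ m := by
  have hq1 : 1 < q := (Fact.out : q.Prime).one_lt
  haveI : Finite (IsLocalRing.ResidueField A) := by
    apply Nat.finite_of_card_ne_zero
    rw [hcard]
    exact (pow_pos (Fact.out : q.Prime).pos f).ne'
  letI : Fintype (IsLocalRing.ResidueField A) := Fintype.ofFinite _
  have hcard' : Fintype.card (IsLocalRing.ResidueField A) = q ^ f := by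
    rw [← Nat.card_eq_fintype_card, hcard]
  constructor
  · intro x hx
    have hxA : x ∈ A := (hA _).2 hx
    have hpow : (IsLocalRing.residue A ⟨x, hxA⟩) ^ (q ^ f) =
        IsLocalRing.residue A ⟨x, hxA⟩ := by
      rw [← hcard']
      exact FiniteField.pow_card _
    have hmem : (⟨x, hxA⟩ : A) ^ (q ^ f) - ⟨x, hxA⟩ ∈ IsLocalRing.maximalIdeal A := by
      rw [← IsLocalRing.residue_eq_zero_iff, map_sub, map_pow, hpow, sub_self]
    exact normLike_lt_one_of_mem_maximalIdeal A N hN00 hN1 hNmul hA _ hmem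
  · intro m hm hx
    have hqm : 1 < q ^ m := Nat.one_lt_pow hm.ne' hq1
    have hroots : (Finset.univ : Finset (IsLocalRing.ResidueField A)).val ⊆
        (X ^ (q ^ m) - X : (IsLocalRing.ResidueField A)[X]).roots := by
      intro y _
      obtain ⟨a, rfl⟩ := IsLocalRing.residue_surjective y
      rw [mem_roots (FiniteField.X_pow_card_sub_X_ne_zero _ hqm)]
      simp only [IsRoot.def, eval_sub, eval_pow, eval_X]
      have h1 := hx (a : E) ((hA _).1 a.2)
      have h2 : a ^ (q ^ m) - a ∈ IsLocalRing.maximalIdeal A :=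
        mem_maximalIdeal_of_normLike_lt_one A N hN1 hNmul hN0 hA _ h1
      rw [← IsLocalRing.residue_eq_zero_iff, map_sub, map_pow] at h2
      exact h2
    have hle := card_le_degree_of_subset_roots hroots
    rw [FiniteField.X_pow_card_sub_X_natDegree_eq _ hqm, Finset.card_univ, hcard'] at hle
    exact (Nat.pow_le_pow_iff_right hq1).1 hle

/-- A uniformizer of a discrete valuation subring has maximal `N` among the non-units. -/
theorem normLike_uniformizer [IsDiscreteValuationRing A] (hN00 : N 0 = 0) (hN1 : N 1 = 1)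
    (hNmul : ∀ x y, N (x * y) = N x * N y) (hN0 : ∀ x, 0 ≤ N x)
    (hA : ∀ x : E, x ∈ A ↔ N x ≤ 1) (ϖ : A) (hϖ : Irreducible ϖ) :
    (ϖ : E) ≠ 0 ∧ N (ϖ : E) < 1 ∧ ∀ x : E, N x < 1 → N x ≤ N (ϖ : E) := by
  refine ⟨?_, ?_, ?_⟩
  · intro h0
    exact hϖ.ne_zero (Subtype.ext h0)
  · exact normLike_lt_one_of_mem_maximalIdeal A N hN00 hN1 hNmul hA ϖ
      ((IsLocalRing.mem_maximalIdeal ϖ).2 hϖ.not_isUnit)
  · intro x hx
    have hxA : x ∈ A := (hA x).2 hx.le
    have hmem : (⟨x, hxA⟩ : A) ∈ IsLocalRing.maximalIdeal A :=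
      mem_maximalIdeal_of_normLike_lt_one A N hN1 hNmul hN0 hA _ hx
    rw [(IsDiscreteValuationRing.irreducible_iff_uniformizer ϖ).1 hϖ,
      Ideal.mem_span_singleton] at hmem
    obtain ⟨y, hy⟩ := hmem
    have h1 : x = (ϖ : E) * (y : E) := congrArg Subtype.val hy
    rw [h1, hNmul]
    calc N (ϖ : E) * N (y : E) ≤ N (ϖ : E) * 1 :=
          mul_le_mul_of_nonneg_left ((hA y).1 y.2) (hN0 _)
      _ = N (ϖ : E) := mul_one _

/-- Every nonzero element is a power of the uniformizer times a unit. -/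
theorem normLike_decomp [IsDiscreteValuationRing A] (hN1 : N 1 = 1)
    (hNmul : ∀ x y, N (x * y) = N x * N y) (hN0 : ∀ x, 0 ≤ N x)
    (hA : ∀ x : E, x ∈ A ↔ N x ≤ 1) (ϖ : A) (hϖ : Irreducible ϖ) (a : E) (ha : a ≠ 0) :
    ∃ (k : ℤ) (u : E), N u = 1 ∧ a = (ϖ : E) ^ k * u := by
  have key : ∀ b : E, b ≠ 0 → b ∈ A → ∃ (n : ℕ) (u : E), N u = 1 ∧ b = (ϖ : E) ^ n * u := by
    intro b hb hbA
    have hb0 : (⟨b, hbA⟩ : A) ≠ 0 := fun h => hb (congrArg Subtype.val h)
    obtain ⟨n, u, hu⟩ := IsDiscreteValuationRing.eq_unit_mul_pow_irreducible hb0 hϖ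
    refine ⟨n, ((u : A) : E), normLike_eq_one_of_isUnit A N hN1 hNmul hN0 hA _ u.isUnit, ?_⟩
    have h1 : b = ((u : A) : E) * (ϖ : E) ^ n := congrArg Subtype.val hu
    rw [h1, mul_comm]
  rcases A.mem_or_inv_mem a with h | h
  · obtain ⟨n, u, hu1, hu⟩ := key a ha h
    exact ⟨n, u, hu1, by rw [zpow_natCast]; exact hu⟩
  · obtain ⟨n, u, hu1, hu⟩ := key a⁻¹ (inv_ne_zero ha) h
    have hu0 : u ≠ 0 := by
      rintro rfl
      rw [mul_zero] at hu
      exact inv_ne_zero ha hu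
    refine ⟨-(n : ℤ), u⁻¹, ?_, ?_⟩
    · have h3 := hNmul u u⁻¹
      rw [mul_inv_cancel₀ hu0, hN1, hu1, one_mul] at h3
      exact h3.symm
    · rw [zpow_neg, zpow_natCast, ← mul_inv, ← hu, inv_inv]

end Abstract

/-! ## The base field `ℚ_q` -/

section Base

variable (q : ℕ) [Fact q.Prime]

/-- Non-units of `ℤ_q` are divisible by `q`. -/
theorem padic_norm_le_inv_of_lt_one (x : ℚ_[q]) (hx : ‖x‖ < 1) : ‖x‖ ≤ (q : ℝ)⁻¹ := by
  have h := (Padic.norm_le_pow_iff_norm_lt_pow_add_one x (-1)).2 (by simpa using hx)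
  simpa using h

theorem isUniformizer_unitBall_padic :
    L.IsUniformizer (L.unitBall63 ℚ_[q]) (q : ℚ_[q]) := by
  have hq1 : (1 : ℝ) < q := by exact_mod_cast (Fact.out : q.Prime).one_lt
  have hq0 : (q : ℚ_[q]) ≠ 0 := by exact_mod_cast (Fact.out : q.Prime).ne_zero
  have hqn : ‖(q : ℚ_[q])‖ = (q : ℝ)⁻¹ := Padic.norm_p
  have hmem : (q : ℚ_[q]) ∈ L.unitBall63 ℚ_[q] := by
    rw [L.mem_unitBall63, hqn]
    exact (inv_lt_one_of_one_lt₀ hq1).le
  haveI : IsDiscreteValuationRing ↥(L.unitBall63 ℚ_[q]) :=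
    (L.isLocalRingOfIntegers_unitBall63 ℚ_[q]).1
  refine ⟨hmem, ?_⟩
  rw [IsDiscreteValuationRing.irreducible_iff_uniformizer]
  apply le_antisymm
  · intro y hy
    have hy1 : ‖(y : ℚ_[q])‖ < 1 :=
      normLike_lt_one_of_mem_maximalIdeal (L.unitBall63 ℚ_[q]) (fun x => ‖x‖) norm_zero norm_one
        norm_mul (fun x => L.mem_unitBall63 ℚ_[q] x) y hy
    have hy2 := padic_norm_le_inv_of_lt_one q _ hy1
    rw [Ideal.mem_span_singleton]
    have hz : (y : ℚ_[q]) / q ∈ L.unitBall63 ℚ_[q] := by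
      rw [L.mem_unitBall63, norm_div, hqn, div_le_one (by positivity)]
      exact hy2
    refine ⟨⟨_, hz⟩, ?_⟩
    apply Subtype.ext
    show (y : ℚ_[q]) = (q : ℚ_[q]) * ((y : ℚ_[q]) / q)
    field_simp
  · rw [Ideal.span_le, Set.singleton_subset_iff]
    apply mem_maximalIdeal_of_normLike_lt_one (L.unitBall63 ℚ_[q]) (fun x => ‖x‖) norm_one
      norm_mul (fun x => norm_nonneg x) (fun x => L.mem_unitBall63 ℚ_[q] x)
    show ‖(q : ℚ_[q])‖ < 1
    rw [hqn]
    exact inv_lt_one_of_one_lt₀ hq1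

theorem card_residueField_unitBall_padic :
    Nat.card (IsLocalRing.ResidueField ↥(L.unitBall63 ℚ_[q])) = q := by
  have hq1 : (1 : ℝ) < q := by exact_mod_cast (Fact.out : q.Prime).one_lt
  have hqn : ‖(q : ℚ_[q])‖ = (q : ℝ)⁻¹ := Padic.norm_p
  haveI : Finite (IsLocalRing.ResidueField ↥(L.unitBall63 ℚ_[q])) :=
    (L.isLocalRingOfIntegers_unitBall63 ℚ_[q]).2.2
  letI : Fintype (IsLocalRing.ResidueField ↥(L.unitBall63 ℚ_[q])) := Fintype.ofFinite _
  -- characteristic `q`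
  have hqmem : ((q : ℕ) : ↥(L.unitBall63 ℚ_[q])) ∈
      IsLocalRing.maximalIdeal ↥(L.unitBall63 ℚ_[q]) := by
    apply mem_maximalIdeal_of_normLike_lt_one (L.unitBall63 ℚ_[q]) (fun x => ‖x‖) norm_one
      norm_mul (fun x => norm_nonneg x) (fun x => L.mem_unitBall63 ℚ_[q] x)
    show ‖(((q : ℕ) : ↥(L.unitBall63 ℚ_[q])) : ℚ_[q])‖ < 1
    have : (((q : ℕ) : ↥(L.unitBall63 ℚ_[q])) : ℚ_[q]) = (q : ℚ_[q]) := by simp
    rw [this, hqn]
    exact inv_lt_one_of_one_lt₀ hq1
  have hzero : ((q : ℕ) : IsLocalRing.ResidueField ↥(L.unitBall63 ℚ_[q])) = 0 := by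
    have h := (IsLocalRing.residue_eq_zero_iff
      ((q : ℕ) : ↥(L.unitBall63 ℚ_[q]))).2 hqmem
    simpa using h
  haveI hchar : CharP (IsLocalRing.ResidueField ↥(L.unitBall63 ℚ_[q])) q :=
    (CharP.charP_iff_prime_eq_zero (Fact.out : q.Prime)).mpr hzero
  obtain ⟨c, -, hc⟩ := FiniteField.card (IsLocalRing.ResidueField ↥(L.unitBall63 ℚ_[q])) q
  -- at most `q` elements
  have hsurj : Function.Surjective
      (fun n : Fin q => IsLocalRing.residue ↥(L.unitBall63 ℚ_[q])
        ((n : ℕ) : ↥(L.unitBall63 ℚ_[q]))) := by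
    intro y
    obtain ⟨a, rfl⟩ := IsLocalRing.residue_surjective y
    have ha : ‖(a : ℚ_[q])‖ ≤ 1 := (L.mem_unitBall63 ℚ_[q] _).1 a.2
    obtain ⟨x, hx⟩ : ∃ x : ℤ_[q], (x : ℚ_[q]) = (a : ℚ_[q]) := ⟨⟨(a : ℚ_[q]), ha⟩, rfl⟩
    obtain ⟨n, hn, hmem⟩ := PadicInt.exists_mem_range (p := q) x
    refine ⟨⟨n, hn⟩, ?_⟩
    show IsLocalRing.residue _ ((n : ℕ) : ↥(L.unitBall63 ℚ_[q])) = IsLocalRing.residue _ a
    rw [eq_comm, ← sub_eq_zero, ← map_sub, IsLocalRing.residue_eq_zero_iff]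
    apply mem_maximalIdeal_of_normLike_lt_one (L.unitBall63 ℚ_[q]) (fun x => ‖x‖) norm_one
      norm_mul (fun x => norm_nonneg x) (fun x => L.mem_unitBall63 ℚ_[q] x)
    show ‖((a - ((n : ℕ) : ↥(L.unitBall63 ℚ_[q])) : ↥(L.unitBall63 ℚ_[q])) : ℚ_[q])‖ < 1
    have h1 : ((a - ((n : ℕ) : ↥(L.unitBall63 ℚ_[q])) : ↥(L.unitBall63 ℚ_[q])) : ℚ_[q]) =
        ((x - (n : ℤ_[q]) : ℤ_[q]) : ℚ_[q]) := by
      simp [hx]
    rw [h1]
    have h2 : (x - (n : ℤ_[q])) ∈ nonunits ℤ_[q] :=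
      (IsLocalRing.mem_maximalIdeal _).1 hmem
    exact PadicInt.mem_nonunits.1 h2
  have hle : Fintype.card (IsLocalRing.ResidueField ↥(L.unitBall63 ℚ_[q])) ≤ q := by
    have := Fintype.card_le_of_surjective _ hsurj
    simpa using this
  rw [Nat.card_eq_fintype_card]
  apply le_antisymm hle
  rw [hc]
  exact Nat.le_self_pow c.pos.ne' q

end Base

/-! ## The fixed field of an open subgroup -/

section Struct

variable {q : ℕ} [Fact q.Prime]

local notation "Gq" => (PadicAlgCl q ≃ₐ[ℚ_[q]] PadicAlgCl q)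

theorem mem_fixedField_iff_isFixedBy (V : Subgroup Gq) (x : PadicAlgCl q) :
    x ∈ IntermediateField.fixedField V ↔ IsFixedBy q V x :=
  IntermediateField.mem_fixedField_iff V x

/-- The fixed field of an open subgroup is finite over `ℚ_q`. -/
theorem finiteDimensional_fixedField (V : Subgroup Gq) (hV : IsOpenL q V) :
    FiniteDimensional ℚ_[q] (IntermediateField.fixedField V) := by
  obtain ⟨E₀, hE₀, hle⟩ := hV
  haveI := hE₀
  have hsub : IntermediateField.fixedField V ≤ E₀ := fun x hx =>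
    isFixedBy_mem_of_le hle ((mem_fixedField_iff_isFixedBy V x).1 hx)
  exact FiniteDimensional.of_injective (IntermediateField.inclusion hsub).toLinearMap
    (IntermediateField.inclusion_injective hsub)

/-- The degree of the fixed field of an open subgroup is its index. -/
theorem finrank_fixedField (V : Subgroup Gq) (hV : IsOpenL q V) :
    Module.finrank ℚ_[q] (IntermediateField.fixedField V) = V.index := by
  haveI := BLocal.isGalois_padicAlgCl q
  have hcl : IsClosed (V : Set Gq) := Subgroup.isClosed_of_isOpen V (isOpen_of_isOpenL hV)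
  rw [IntermediateField.finrank_eq_fixingSubgroup_index]
  have h := InfiniteGalois.fixingSubgroup_fixedField (⟨V, hcl⟩ : ClosedSubgroup Gq)
  exact congrArg Subgroup.index h

/-- Structure of the fixed field of an open subgroup: ramification index, residue degree,
uniformizer. -/
theorem exists_uniformizer_data (V : Subgroup Gq) (hV : IsOpenL q V) :
    ∃ (e f : ℕ) (ϖ : PadicAlgCl q), e * f = V.index ∧
      IsResidueDegree q V f ∧ IsUniformizer q V ϖ ∧ ‖ϖ‖ ^ e = (q : ℝ)⁻¹ ∧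
      ∀ a : PadicAlgCl q, a ≠ 0 → IsFixedBy q V a →
        ∃ (k : ℤ) (u : PadicAlgCl q), IsFixedBy q V u ∧ ‖u‖ = 1 ∧ a = ϖ ^ k * u := by
  haveI hfd := finiteDimensional_fixedField V hV
  obtain ⟨A', hA'int, hA'⟩ :=
    L.exists_ringOfIntegers_eq_unitBall63 q (IntermediateField.fixedField V)
  haveI hdvr : IsDiscreteValuationRing A' := hA'int.1
  obtain ⟨ϖ, hϖ⟩ := IsDiscreteValuationRing.exists_irreducible A'
  haveI := L.padicInst63 q
  obtain ⟨e, f, hef, ⟨u, hu, hu', hqu⟩, hcard⟩ :=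
    L.UnrInv.H717.residueDegree717 ℚ_[q] (IntermediateField.fixedField V)
      (L.unitBall63 ℚ_[q]) A' (q : ℚ_[q]) ((ϖ : A') : IntermediateField.fixedField V)
      (L.isLocalRingOfIntegers_unitBall63 ℚ_[q]) hA'int (isUniformizer_unitBall_padic q)
      ⟨ϖ.2, hϖ⟩
  rw [card_residueField_unitBall_padic] at hcard
  rw [finrank_fixedField V hV] at hef
  haveI hfi : V.FiniteIndex := RelNormH707.finiteIndex_of_isOpenL q hV
  have hq1 : (1 : ℝ) < q := by exact_mod_cast (Fact.out : q.Prime).one_lt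
  -- the norm on the fixed field
  have hN00 : ‖(((0 : IntermediateField.fixedField V)) : PadicAlgCl q)‖ = 0 := by simp
  have hN1 : ‖(((1 : IntermediateField.fixedField V)) : PadicAlgCl q)‖ = 1 := by simp
  have hNmul : ∀ x y : IntermediateField.fixedField V,
      ‖((x * y : IntermediateField.fixedField V) : PadicAlgCl q)‖ =
        ‖(x : PadicAlgCl q)‖ * ‖(y : PadicAlgCl q)‖ := fun x y => by simp
  have hN0 : ∀ x : IntermediateField.fixedField V, 0 ≤ ‖(x : PadicAlgCl q)‖ :=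
    fun x => norm_nonneg _
  have hres := normLike_residue A' (fun x => ‖(x : PadicAlgCl q)‖) q hN00 hN1 hNmul hN0 hA' f
    hcard
  have hunif := normLike_uniformizer A' (fun x => ‖(x : PadicAlgCl q)‖) hN00 hN1 hNmul hN0 hA'
    ϖ hϖ
  have hdec := normLike_decomp A' (fun x => ‖(x : PadicAlgCl q)‖) hN1 hNmul hN0 hA' ϖ hϖ
  have hf0 : 0 < f := by
    rcases Nat.eq_zero_or_pos f with h | h
    · rw [h, mul_zero] at hef
      exact absurd hef.symm hfi.index_ne_zero
    · exact h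
  refine ⟨e, f, (((ϖ : A') : IntermediateField.fixedField V) : PadicAlgCl q), hef,
    ⟨hf0, ?_, ?_⟩, ⟨?_, ?_, hunif.2.1, ?_⟩, ?_, ?_⟩
  · intro x hx hx1
    exact hres.1 ⟨x, (mem_fixedField_iff_isFixedBy V x).2 hx⟩ hx1
  · intro m hm hx
    refine hres.2 m hm fun x hx1 => ?_
    exact hx (x : PadicAlgCl q) ((mem_fixedField_iff_isFixedBy V _).1 x.2) hx1
  · exact (mem_fixedField_iff_isFixedBy V _).1 ((ϖ : A') : IntermediateField.fixedField V).2
  · intro h0
    exact hunif.1 (Subtype.ext h0)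
  · intro x hx hx1
    exact hunif.2.2 ⟨x, (mem_fixedField_iff_isFixedBy V x).2 hx⟩ hx1
  · have h6 : ((algebraMap ℚ_[q] (IntermediateField.fixedField V) (q : ℚ_[q]) :
        IntermediateField.fixedField V) : PadicAlgCl q) =
        algebraMap ℚ_[q] (PadicAlgCl q) (q : ℚ_[q]) := rfl
    have h8 : ((u * ((ϖ : A') : IntermediateField.fixedField V) ^ e :
        IntermediateField.fixedField V) : PadicAlgCl q) =
        (u : PadicAlgCl q) * (((ϖ : A') : IntermediateField.fixedField V) : PadicAlgCl q) ^ e :=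
      rfl
    have h4 : ‖algebraMap ℚ_[q] (PadicAlgCl q) (q : ℚ_[q])‖ =
        ‖(u : PadicAlgCl q) *
          (((ϖ : A') : IntermediateField.fixedField V) : PadicAlgCl q) ^ e‖ := by
      rw [← h6, ← h8, hqu]
    rw [PadicAlgCl.norm_extends, Padic.norm_p, norm_mul, norm_pow] at h4
    have hu1 : ‖(u : PadicAlgCl q)‖ = 1 := by
      have h1 : ‖(u : PadicAlgCl q)‖ ≤ 1 := (hA' u).1 hu
      have h2 : ‖((u⁻¹ : IntermediateField.fixedField V) : PadicAlgCl q)‖ ≤ 1 := (hA' _).1 hu'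
      have h3 : ((u⁻¹ : IntermediateField.fixedField V) : PadicAlgCl q) =
          (u : PadicAlgCl q)⁻¹ := rfl
      rw [h3, norm_inv] at h2
      have hupos : 0 < ‖(u : PadicAlgCl q)‖ := by
        rcases (norm_nonneg (u : PadicAlgCl q)).lt_or_eq with h | h
        · exact h
        · rw [← h, zero_mul] at h4
          exact absurd h4 (by positivity)
      exact le_antisymm h1 ((inv_le_one₀ hupos).1 h2)
    rw [hu1, one_mul] at h4
    exact h4.symm
  · intro a ha0 ha
    have haE : a ∈ IntermediateField.fixedField V := (mem_fixedField_iff_isFixedBy V a).2 ha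
    obtain ⟨k, w, hw1, hw⟩ := hdec ⟨a, haE⟩ (fun h => ha0 (congrArg Subtype.val h))
    refine ⟨k, (w : PadicAlgCl q), (mem_fixedField_iff_isFixedBy V _).1 w.2, hw1, ?_⟩
    have h9 : a = ((((ϖ : A') : IntermediateField.fixedField V) ^ k * w :
        IntermediateField.fixedField V) : PadicAlgCl q) :=
      congrArg (fun t : IntermediateField.fixedField V => (t : PadicAlgCl q)) hw
    rw [h9]
    push_cast
    rfl

/-- **REC2-L2** local structure: Frobenius elements and uniformizers exist; `vdeg = f · ord`. -/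
theorem localStructure : LocalStructureSpec := by
  intro q _ V hV
  obtain ⟨e, f, ϖ, hef, hf, hϖ, hϖe, hdec⟩ := exists_uniformizer_data V hV
  obtain ⟨φ, hφV, hφ⟩ := exists_frobenius_lift V hV f hf.2.1
  have hq1 : 1 < q := (Fact.out : q.Prime).one_lt
  have hidx : ‖ϖ‖ ^ V.index = (q : ℝ) ^ (-(f : ℤ)) := by
    rw [← hef, pow_mul, hϖe, inv_pow, zpow_neg, zpow_natCast]
  refine ⟨f, φ, Units.mk0 ϖ hϖ.2.1, hf, hφV, hφ, hϖ, ?_, ?_⟩
  · unfold vdeg
    rw [Units.val_mk0, hidx, Int.log_zpow hq1, neg_neg]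
  · intro a ha
    obtain ⟨k, u, hu, hu1, hau⟩ := hdec (a : PadicAlgCl q) a.ne_zero
      (fun τ hτ => congrArg Units.val (ha τ hτ))
    have hu0 : u ≠ 0 := by
      intro h
      rw [h, norm_zero] at hu1
      exact zero_ne_one hu1
    refine ⟨k, Units.mk0 u hu0, ?_, hu1, ?_, ?_⟩
    · intro τ hτ
      exact Units.ext (hu τ hτ)
    · apply Units.ext
      rw [Units.val_mul, Units.val_zpow_eq_zpow_val, Units.val_mk0, Units.val_mk0]
      exact hau
    · unfold vdeg
      have h1 : ‖(a : PadicAlgCl q)‖ ^ V.index = (q : ℝ) ^ (-(f : ℤ) * k) := by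
        rw [hau, norm_mul, hu1, mul_one, norm_zpow, ← zpow_natCast, ← zpow_mul, mul_comm,
          zpow_mul, zpow_natCast, hidx, ← zpow_mul]
      rw [h1, Int.log_zpow hq1]
      ring

end Struct

end Fermat.Agent.S55.G.Rec.H541
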