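import Fermat.Agent.S55.L.SpecInv
import Fermat.Agent.S55.G.Rec.H541.Core

/-!
# S55 / layer G / block REC — leaf `REC-Ltame` (helper541), part 2: fields

Skew-symmetry of the Kummer symbol on cocycles, and the tame symbol formula, in the vocabulary
of the layer-L interface (`Fermat.Agent.S55.L`: `unitsRep`, `cls`, `IsCyclicCocycle`,
`IsInflation`, `InvFamily`).
-/

set_option autoImplicit false

namespace Fermat.Agent.S55.G.Rec.H541

open groupCohomology Fermat.Agent.S55.L

section Inflation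

variable {K L L' : Type} [Field K] [Field L] [Field L'] [Algebra K L] [Algebra K L']
  [Algebra L L'] [IsScalarTower K L L'] [Normal K L]

/-- The additive map `Lˣ → L'ˣ` (on `Additive`), typed on the carriers of `unitsRep`. -/
noncomputable def unitsIncl (K L L' : Type) [Field K] [Field L] [Field L'] [Algebra K L]
    [Algebra K L'] [Algebra L L'] : (unitsRep K L : Type) →+ (unitsRep K L' : Type) :=
  (Rep.toAdditive (M := L' ≃ₐ[K] L') (G := L'ˣ)).symm.toAddMonoidHom.comp
    ((MonoidHom.toAdditive (Units.map (algebraMap L L' : L →* L'))).comp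
      (Rep.toAdditive (M := L ≃ₐ[K] L) (G := Lˣ)).toAddMonoidHom)

omit [IsScalarTower K L L'] [Normal K L] in
theorem unitsIncl_apply (y : unitsRep K L) :
    unitsIncl K L L' y =
      Additive.ofMul (Units.map (algebraMap L L' : L →* L') (Additive.toMul y)) :=
  rfl

theorem unitsIncl_rho (g : L' ≃ₐ[K] L') (y : unitsRep K L) :
    (unitsRep K L').ρ g (unitsIncl K L L' y) =
      unitsIncl K L L' ((unitsRep K L).ρ (AlgEquiv.restrictNormalHom L g) y) := by
  apply Additive.toMul.injective
  apply Units.ext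
  exact (AlgEquiv.restrictNormal_commutes g L _).symm

/-- Inflation of a 2-cocycle along `K ⊆ L ⊆ L'`. -/
noncomputable def inflCocycle (f : cocycles₂ (unitsRep K L)) : cocycles₂ (unitsRep K L') :=
  ⟨fun p => unitsIncl K L L'
      ((f : (L ≃ₐ[K] L) × (L ≃ₐ[K] L) → unitsRep K L)
        (AlgEquiv.restrictNormalHom L p.1, AlgEquiv.restrictNormalHom L p.2)), by
    rw [mem_cocycles₂_iff]
    intro g h j
    have hf := (mem_cocycles₂_iff (f : (L ≃ₐ[K] L) × (L ≃ₐ[K] L) → unitsRep K L)).1 f.2
      (AlgEquiv.restrictNormalHom L g) (AlgEquiv.restrictNormalHom L h)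
      (AlgEquiv.restrictNormalHom L j)
    have h2 := congrArg (unitsIncl K L L') hf
    rw [map_add, map_add, ← unitsIncl_rho] at h2
    simpa only [map_mul] using h2⟩

theorem inflCocycle_apply (f : cocycles₂ (unitsRep K L)) (g h : L' ≃ₐ[K] L') :
    (inflCocycle (L' := L') f : (L' ≃ₐ[K] L') × (L' ≃ₐ[K] L') → unitsRep K L') (g, h) =
      unitsIncl K L L' ((f : (L ≃ₐ[K] L) × (L ≃ₐ[K] L) → unitsRep K L)
        (AlgEquiv.restrictNormalHom L g, AlgEquiv.restrictNormalHom L h)) :=
  rfl

theorem isInflation_inflCocycle (f : cocycles₂ (unitsRep K L)) :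
    IsInflation f (inflCocycle (L' := L') f) :=
  fun _ _ => rfl

end Inflation


section ToRep

variable (K : Type) {M : Type} [Field K] [Field M] [Algebra K M]

/-- A unit of `M`, as an element of the carrier of `unitsRep K M`. -/
noncomputable def toRep (u : Mˣ) : (unitsRep K M : Type) :=
  (Rep.toAdditive (M := M ≃ₐ[K] M) (G := Mˣ)).symm (Additive.ofMul u)

theorem toRep_one : toRep K (1 : Mˣ) = 0 := rfl

theorem toRep_mul (u v : Mˣ) : toRep K (u * v) = toRep K u + toRep K v := rfl

theorem toRep_pow (u : Mˣ) (k : ℕ) : toRep K (u ^ k) = k • toRep K u := rfl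

theorem toRep_injective : Function.Injective (toRep K : Mˣ → (unitsRep K M : Type)) :=
  fun _ _ h => h

theorem rho_toRep (g : M ≃ₐ[K] M) (u : Mˣ) :
    (unitsRep K M).ρ g (toRep K u) = toRep K (Units.map (g : M →* M) u) := rfl

theorem unitsIncl_toRep {L : Type} [Field L] [Algebra K L] [Algebra L M] (u : Lˣ) :
    unitsIncl K L M (toRep K u) = toRep K (Units.map (algebraMap L M : L →* M) u) := rfl

end ToRep


section Cyclic

variable {K L : Type} [Field K] [Field L] [Algebra K L] [FiniteDimensional K L] [IsGalois K L]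

theorem orderOf_eq_finrank (σ : L ≃ₐ[K] L) (hσ : ∀ g, g ∈ Subgroup.zpowers σ) :
    orderOf σ = Module.finrank K L := by
  rw [orderOf_eq_card_of_forall_mem_zpowers hσ, IsGalois.card_aut_eq_finrank]

/-- Pointwise description of a cyclic cocycle: `f (g, h) = carry (g, h) • a`. -/
theorem cyclicCocycle_apply (σ : L ≃ₐ[K] L) (hσ : ∀ g, g ∈ Subgroup.zpowers σ) (a : Kˣ)
    (f : cocycles₂ (unitsRep K L)) (hf : IsCyclicCocycle σ a f) (g h : L ≃ₐ[K] L) :
    (f : (L ≃ₐ[K] L) × (L ≃ₐ[K] L) → unitsRep K L) (g, h) =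
      ((cexp σ hσ g + cexp σ hσ h) / Module.finrank K L) •
        toRep K (Units.map (algebraMap K L : K →* L) a) := by
  have hd := orderOf_eq_finrank σ hσ
  have hg := cexp_lt σ hσ g
  have hh := cexp_lt σ hσ h
  rw [hd] at hg hh
  have key := hf (cexp σ hσ g) (cexp σ hσ h) hg hh
  rw [pow_cexp, pow_cexp] at key
  rw [key]
  split_ifs with hlt
  · rw [Nat.div_eq_of_lt hlt, zero_smul]
    rfl
  · have h1 : (cexp σ hσ g + cexp σ hσ h) / Module.finrank K L = 1 := by
      have hpos : 0 < Module.finrank K L := by omega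
      apply Nat.div_eq_of_lt_le
      · omega
      · omega
    rw [h1, one_smul]
    rfl

end Cyclic


section Main

theorem algEquiv_pow_apply_eq {K E : Type} [Field K] [Field E] [Algebra K E]
    (σ : E ≃ₐ[K] E) (ζ : K) (α : E) (s : ℕ)
    (hσα : σ α = algebraMap K E ζ ^ s * α) (k : ℕ) :
    (σ ^ k) α = algebraMap K E ζ ^ (s * k) * α := by
  induction k with
  | zero => simp
  | succ k ih =>
    rw [pow_succ, AlgEquiv.mul_apply, hσα, map_mul, map_pow, AlgEquiv.commutes, ih]
    ring

variable {K E E' M : Type} [Field K] [Field E] [Field E'] [Field M]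
  [Algebra K E] [Algebra K E'] [Algebra K M] [Algebra E M] [Algebra E' M]
  [IsScalarTower K E M] [IsScalarTower K E' M]
  [FiniteDimensional K E] [FiniteDimensional K E'] [IsGalois K E] [IsGalois K E']

omit [FiniteDimensional K E'] [IsGalois K E'] [Algebra K E'] [Algebra E' M]
  [IsScalarTower K E' M] in
/-- Galois action on the image in `M` of a Kummer generator `α ∈ E`. -/
theorem map_kummer_generator (ζ : Kˣ) (σ : E ≃ₐ[K] E) (hσ : ∀ g, g ∈ Subgroup.zpowers σ)
    (αu : Eˣ) (s : ℕ) (hσα : σ (αu : E) = algebraMap K E ζ ^ s * αu) (g : M ≃ₐ[K] M) :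
    (unitsRep K M).ρ g (toRep K (Units.map (algebraMap E M : E →* M) αu)) =
      toRep K (Units.map (algebraMap E M : E →* M) αu) +
        (s * cexp σ hσ (AlgEquiv.restrictNormalHom E g)) •
          toRep K (Units.map (algebraMap K M : K →* M) ζ) := by
  rw [rho_toRep, ← toRep_pow, ← toRep_mul]
  congr 1
  apply Units.ext
  simp only [Units.coe_map, MonoidHom.coe_coe, Units.val_mul, Units.val_pow_eq_pow_val]
  have h1 : g (algebraMap E M (αu : E)) =
      algebraMap E M ((AlgEquiv.restrictNormalHom E g) (αu : E)) :=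
    (AlgEquiv.restrictNormal_commutes g E _).symm
  have h2 : (AlgEquiv.restrictNormalHom E g) (αu : E) =
      algebraMap K E ζ ^ (s * cexp σ hσ (AlgEquiv.restrictNormalHom E g)) * αu := by
    conv_lhs => rw [← pow_cexp σ hσ (AlgEquiv.restrictNormalHom E g)]
    exact algEquiv_pow_apply_eq σ ζ αu s hσα _
  calc g (algebraMap E M (αu : E)) = algebraMap E M ((AlgEquiv.restrictNormalHom E g) (αu : E)) := h1
    _ = algebraMap E M (αu : E) * algebraMap K M ζ ^ (s * cexp σ hσ (AlgEquiv.restrictNormalHom E g)) := by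
        rw [h2, map_mul, map_pow, ← IsScalarTower.algebraMap_apply, mul_comm]

omit [FiniteDimensional K E'] [IsGalois K E'] [Algebra K E'] [Algebra E' M]
  [IsScalarTower K E' M] in
/-- Pointwise description of the inflation of a cyclic cocycle. -/
theorem inflCocycle_cyclic_apply (σ : E ≃ₐ[K] E) (hσ : ∀ g, g ∈ Subgroup.zpowers σ) (b : Kˣ)
    (f : cocycles₂ (unitsRep K E)) (hf : IsCyclicCocycle σ b f) (g h : M ≃ₐ[K] M) :
    (inflCocycle (L' := M) f : (M ≃ₐ[K] M) × (M ≃ₐ[K] M) → unitsRep K M) (g, h) =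
      ((cexp σ hσ (AlgEquiv.restrictNormalHom E g) + cexp σ hσ (AlgEquiv.restrictNormalHom E h))
        / Module.finrank K E) • toRep K (Units.map (algebraMap K M : K →* M) b) := by
  rw [inflCocycle_apply, cyclicCocycle_apply σ hσ b f hf, map_nsmul, unitsIncl_toRep]
  congr 2
  apply Units.ext
  simp only [Units.coe_map, MonoidHom.coe_coe]
  exact (IsScalarTower.algebraMap_apply K E M _).symm

omit [FiniteDimensional K E'] [IsGalois K E'] [Algebra K E'] [Algebra E' M]
  [IsScalarTower K E' M] in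
theorem cexp_restrict_mul (σ : E ≃ₐ[K] E) (hσ : ∀ g, g ∈ Subgroup.zpowers σ)
    (g h : M ≃ₐ[K] M) :
    cexp σ hσ (AlgEquiv.restrictNormalHom E (g * h)) + Module.finrank K E *
      ((cexp σ hσ (AlgEquiv.restrictNormalHom E g) + cexp σ hσ (AlgEquiv.restrictNormalHom E h))
        / Module.finrank K E) =
      cexp σ hσ (AlgEquiv.restrictNormalHom E g) + cexp σ hσ (AlgEquiv.restrictNormalHom E h) := by
  rw [map_mul, cexp_mul, orderOf_eq_finrank σ hσ]
  exact Nat.mod_add_div _ _

/-- **Skew-symmetry of the Kummer symbol, on cocycles.**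
`K ⊆ E, E' ⊆ M`, `E/K` and `E'/K` cyclic with generators `σ`, `φ`; `α ∈ E`, `β ∈ E'` with
`αⁿ = a`, `βⁿ = b ∈ Kˣ`, `σ α = ζ^s α`, `φ β = ζ^t β` (`ζ ∈ K`, `ζⁿ = 1`),
`n m = s [E:K]`, `n m' = t [E':K]`.
Then `m • inf [σ, b] + m' • inf [φ, a] = 0` in `H²(Gal(M/K), Mˣ)`, where `[σ, b]` is the class of
the cyclic cocycle of `(σ, b)`. -/
theorem cls_kummer_skew (n s t m m' : ℕ) (hn : 0 < n) (ζ a b : Kˣ) (hζ : ζ ^ n = 1)
    (σ : E ≃ₐ[K] E) (hσ : ∀ g, g ∈ Subgroup.zpowers σ)
    (φ : E' ≃ₐ[K] E') (hφ : ∀ g, g ∈ Subgroup.zpowers φ)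
    (α : E) (β : E')
    (hα : α ^ n = algebraMap K E a) (hβ : β ^ n = algebraMap K E' b)
    (hσα : σ α = algebraMap K E ζ ^ s * α) (hφβ : φ β = algebraMap K E' ζ ^ t * β)
    (hm : n * m = s * Module.finrank K E) (hm' : n * m' = t * Module.finrank K E')
    (f : cocycles₂ (unitsRep K E)) (hf : IsCyclicCocycle σ b f)
    (f' : cocycles₂ (unitsRep K E')) (hf' : IsCyclicCocycle φ a f') :
    m • cls (inflCocycle (L' := M) f) + m' • cls (inflCocycle (L' := M) f') = 0 := by
  have hα0 : α ≠ 0 := by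
    rintro rfl
    rw [zero_pow hn.ne'] at hα
    exact a.ne_zero ((algebraMap K E).injective (by rw [← hα, map_zero]))
  have hβ0 : β ≠ 0 := by
    rintro rfl
    rw [zero_pow hn.ne'] at hβ
    exact b.ne_zero ((algebraMap K E').injective (by rw [← hβ, map_zero]))
  set αu : Eˣ := Units.mk0 α hα0 with hαu
  set βu : E'ˣ := Units.mk0 β hβ0 with hβu
  have key := kummer_sum_mem_coboundaries (unitsRep K M)
    (toRep K (Units.map (algebraMap K M : K →* M) ζ))
    (toRep K (Units.map (algebraMap E M : E →* M) αu))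
    (toRep K (Units.map (algebraMap E' M : E' →* M) βu))
    n (Module.finrank K E) (Module.finrank K E') s t m m'
    (fun g => cexp σ hσ (AlgEquiv.restrictNormalHom E g))
    (fun g => cexp φ hφ (AlgEquiv.restrictNormalHom E' g))
    (by rw [← toRep_pow, ← map_pow, hζ, map_one, toRep_one])
    (fun g => map_kummer_generator ζ σ hσ αu s hσα g)
    (fun g => map_kummer_generator ζ φ hφ βu t hφβ g)
    (fun g => by
      rw [rho_toRep]
      congr 1
      apply Units.ext
      simp only [Units.coe_map, MonoidHom.coe_coe, AlgEquiv.commutes])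
    (fun g h => cexp_restrict_mul σ hσ g h)
    (fun g h => cexp_restrict_mul φ hφ g h)
    hm hm'
    (⇑(m • inflCocycle (L' := M) f + m' • inflCocycle (L' := M) f'))
    (fun g h => by
      have e1 : n • toRep K (Units.map (algebraMap E' M : E' →* M) βu) =
          toRep K (Units.map (algebraMap K M : K →* M) b) := by
        rw [← toRep_pow]
        congr 1
        apply Units.ext
        simp only [Units.coe_map, MonoidHom.coe_coe, Units.val_pow_eq_pow_val, hβu,
          Units.val_mk0, ← map_pow, hβ]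
        exact (IsScalarTower.algebraMap_apply K E' M _).symm
      have e2 : n • toRep K (Units.map (algebraMap E M : E →* M) αu) =
          toRep K (Units.map (algebraMap K M : K →* M) a) := by
        rw [← toRep_pow]
        congr 1
        apply Units.ext
        simp only [Units.coe_map, MonoidHom.coe_coe, Units.val_pow_eq_pow_val, hαu,
          Units.val_mk0, ← map_pow, hα]
        exact (IsScalarTower.algebraMap_apply K E M _).symm
      rw [e1, e2, mul_smul, mul_smul,
        ← inflCocycle_cyclic_apply σ hσ b f hf g h, ← inflCocycle_cyclic_apply φ hφ a f' hf' g h]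
      rfl)
  have h0 := (H2π_eq_zero_iff (m • inflCocycle (L' := M) f + m' • inflCocycle (L' := M) f')).2 key
  rw [map_add, map_nsmul, map_nsmul] at h0
  exact h0

end Main


section Overfield

/-- Two finite Galois extensions of `K` have a common finite Galois overfield. -/
theorem exists_common_overfield (K E E' : Type) [Field K] [Field E] [Field E']
    [Algebra K E] [Algebra K E'] [FiniteDimensional K E] [FiniteDimensional K E']
    [IsGalois K E] [IsGalois K E'] :
    ∃ (M : Type) (_ : Field M) (_ : Algebra K M) (_ : Algebra E M) (_ : Algebra E' M),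
      IsScalarTower K E M ∧ IsScalarTower K E' M ∧ FiniteDimensional K M ∧ IsGalois K M := by
  let Ω := AlgebraicClosure K
  let ι : E →ₐ[K] Ω := IsAlgClosed.lift
  let ι' : E' →ₐ[K] Ω := IsAlgClosed.lift
  let F1 : IntermediateField K Ω := ι.fieldRange
  let F2 : IntermediateField K Ω := ι'.fieldRange
  let e1 : E ≃ₐ[K] F1 := AlgEquiv.ofInjectiveField ι
  let e2 : E' ≃ₐ[K] F2 := AlgEquiv.ofInjectiveField ι'
  have : FiniteDimensional K F1 := e1.toLinearEquiv.finiteDimensional
  have : FiniteDimensional K F2 := e2.toLinearEquiv.finiteDimensional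
  have : IsGalois K F1 := IsGalois.of_algEquiv e1
  have : IsGalois K F2 := IsGalois.of_algEquiv e2
  let j1 : E →ₐ[K] ↥(F1 ⊔ F2) := (IntermediateField.inclusion le_sup_left).comp e1.toAlgHom
  let j2 : E' →ₐ[K] ↥(F1 ⊔ F2) := (IntermediateField.inclusion le_sup_right).comp e2.toAlgHom
  refine ⟨↥(F1 ⊔ F2), inferInstance, inferInstance, j1.toRingHom.toAlgebra,
    j2.toRingHom.toAlgebra, ?_, ?_, inferInstance, ⟨⟩⟩
  · let _ : Algebra E ↥(F1 ⊔ F2) := j1.toRingHom.toAlgebra
    exact IsScalarTower.of_algebraMap_eq (fun x => (j1.commutes x).symm)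
  · let _ : Algebra E' ↥(F1 ⊔ F2) := j2.toRingHom.toAlgebra
    exact IsScalarTower.of_algebraMap_eq (fun x => (j2.commutes x).symm)

end Overfield

section Inv

variable {K E E' : Type} [Field K] [Field E] [Field E']
  [Algebra K E] [Algebra K E'] [FiniteDimensional K E] [FiniteDimensional K E']
  [IsGalois K E] [IsGalois K E'] [IsLocalFld K]

/-- **Skew-symmetry of the Kummer symbol** for a family of invariant maps (only compatibility
with inflation is used).  `E/K`, `E'/K` cyclic with generators `σ`, `φ`; `αⁿ = a`, `βⁿ = b`,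
`σ α = ζ^s α`, `φ β = ζ^t β`, `n m = s [E:K]`, `n m' = t [E':K]`:
`m • inv_{E/K} [σ, b] + m' • inv_{E'/K} [φ, a] = 0`. -/
theorem inv_kummer_skew (I : InvFamily) (n s t m m' : ℕ) (hn : 0 < n) (ζ a b : Kˣ)
    (hζ : ζ ^ n = 1)
    (σ : E ≃ₐ[K] E) (hσ : ∀ g, g ∈ Subgroup.zpowers σ)
    (φ : E' ≃ₐ[K] E') (hφ : ∀ g, g ∈ Subgroup.zpowers φ)
    (α : E) (β : E')
    (hα : α ^ n = algebraMap K E a) (hβ : β ^ n = algebraMap K E' b)
    (hσα : σ α = algebraMap K E ζ ^ s * α) (hφβ : φ β = algebraMap K E' ζ ^ t * β)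
    (hm : n * m = s * Module.finrank K E) (hm' : n * m' = t * Module.finrank K E')
    (f : cocycles₂ (unitsRep K E)) (hf : IsCyclicCocycle σ b f)
    (f' : cocycles₂ (unitsRep K E')) (hf' : IsCyclicCocycle φ a f') :
    m • I.inv K E (cls f) + m' • I.inv K E' (cls f') = 0 := by
  obtain ⟨M, hM1, hM2, hM3, hM4, h1, h2, h3, h4⟩ := exists_common_overfield K E E'
  have key := cls_kummer_skew (M := M) n s t m m' hn ζ a b hζ σ hσ φ hφ α β hα hβ hσα hφβ
    hm hm' f hf f' hf'
  have key2 := congrArg (I.inv K M) key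
  rw [map_add, map_nsmul, map_nsmul, map_zero,
    I.inv_inflation K E M f _ (isInflation_inflCocycle f),
    I.inv_inflation K E' M f' _ (isInflation_inflCocycle f')] at key2
  exact key2

end Inv


section CyclicCocycle

variable {K L : Type} [Field K] [Field L] [Algebra K L] [FiniteDimensional K L] [IsGalois K L]

theorem carry_assoc (a b c d : ℕ) :
    ((a + b) % d + c) / d + (a + b) / d = (b + c) / d + (a + (b + c) % d) / d := by
  rcases Nat.eq_zero_or_pos d with rfl | hd
  · simp
  have h1 : ((a + b) % d + c) / d + (a + b) / d = (a + b + c) / d := by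
    conv_rhs => rw [← Nat.mod_add_div (a + b) d]
    rw [show (a + b) % d + d * ((a + b) / d) + c = ((a + b) % d + c) + d * ((a + b) / d) by ring,
      Nat.add_mul_div_left _ _ hd]
  have h2 : (b + c) / d + (a + (b + c) % d) / d = (a + b + c) / d := by
    conv_rhs => rw [add_assoc, ← Nat.mod_add_div (b + c) d]
    rw [show a + ((b + c) % d + d * ((b + c) / d)) = (a + (b + c) % d) + d * ((b + c) / d) by
      ring, Nat.add_mul_div_left _ _ hd, add_comm]
  rw [h1, h2]

/-- The cyclic cocycle of `(σ, a)`: `(g, h) ↦ carry (g, h) • a`, for a generator `σ` of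
`Gal(L/K)` and `a ∈ Kˣ`. -/
noncomputable def cyclicCocycle (σ : L ≃ₐ[K] L) (hσ : ∀ g, g ∈ Subgroup.zpowers σ) (a : Kˣ) :
    cocycles₂ (unitsRep K L) :=
  ⟨fun p => ((cexp σ hσ p.1 + cexp σ hσ p.2) / Module.finrank K L) •
      toRep K (Units.map (algebraMap K L : K →* L) a), by
    rw [mem_cocycles₂_iff]
    intro g h j
    have hfix : (unitsRep K L).ρ g (toRep K (Units.map (algebraMap K L : K →* L) a)) =
        toRep K (Units.map (algebraMap K L : K →* L) a) := by
      rw [rho_toRep]
      congr 1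
      apply Units.ext
      simp only [Units.coe_map, MonoidHom.coe_coe, AlgEquiv.commutes]
    simp only [map_nsmul, hfix, ← add_smul, cexp_mul, orderOf_eq_finrank σ hσ]
    rw [carry_assoc]⟩

theorem cyclicCocycle_apply' (σ : L ≃ₐ[K] L) (hσ : ∀ g, g ∈ Subgroup.zpowers σ) (a : Kˣ)
    (g h : L ≃ₐ[K] L) :
    (cyclicCocycle σ hσ a : (L ≃ₐ[K] L) × (L ≃ₐ[K] L) → unitsRep K L) (g, h) =
      ((cexp σ hσ g + cexp σ hσ h) / Module.finrank K L) •
        toRep K (Units.map (algebraMap K L : K →* L) a) :=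
  rfl

theorem isCyclicCocycle_cyclicCocycle (σ : L ≃ₐ[K] L) (hσ : ∀ g, g ∈ Subgroup.zpowers σ)
    (a : Kˣ) : IsCyclicCocycle σ a (cyclicCocycle σ hσ a) := by
  intro i j hi hj
  have hd := orderOf_eq_finrank σ hσ
  rw [cyclicCocycle_apply', cexp_pow σ hσ i (hd ▸ hi), cexp_pow σ hσ j (hd ▸ hj)]
  split_ifs with hlt
  · rw [Nat.div_eq_of_lt hlt, zero_smul]
    rfl
  · have h1 : (i + j) / Module.finrank K L = 1 := by
      apply Nat.div_eq_of_lt_le
      · omega
      · omega
    rw [h1, one_smul]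
    rfl

/-- A cocycle satisfying `IsCyclicCocycle σ a` is the standard one. -/
theorem eq_cyclicCocycle (σ : L ≃ₐ[K] L) (hσ : ∀ g, g ∈ Subgroup.zpowers σ) (a : Kˣ)
    (f : cocycles₂ (unitsRep K L)) (hf : IsCyclicCocycle σ a f) : f = cyclicCocycle σ hσ a := by
  apply cocycles₂_ext
  intro g h
  rw [cyclicCocycle_apply σ hσ a f hf, cyclicCocycle_apply']

end CyclicCocycle

section TameSymbol

variable {K E E' : Type} [Field K] [Field E] [Field E']
  [Algebra K E] [Algebra K E'] [FiniteDimensional K E] [FiniteDimensional K E']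
  [IsGalois K E] [IsGalois K E'] [IsLocalFld K]

/-- **Tame symbol formula.**  `K` local, `π` a uniformizer, `E/K` cyclic of degree `n` with
generator `σ`, `α ∈ E`, `αⁿ = π`, `σ α = ζ α`; `E'/K` unramified with Frobenius `φ` (a generator),
`β ∈ E'` with `βⁿ = u`, `φ β = ζ^t β`.  Then the cyclic class `[σ, u] ∈ H²(Gal(E/K), Eˣ)` has
invariant `- t / n`. -/
theorem inv_tame (I : InvFamily) (n t m' : ℕ) (hn : 0 < n) (ζ : Kˣ) (hζ : ζ ^ n = 1)
    (σ : E ≃ₐ[K] E) (hσ : ∀ g, g ∈ Subgroup.zpowers σ) (hE : Module.finrank K E = n)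
    (A : ValuationSubring K) (hA : IsLocalRingOfIntegers A) (π : Kˣ)
    (hπ : IsUniformizer A (π : K))
    (hE' : IsUnramifiedExt K E') (φ : E' ≃ₐ[K] E') (hφ : IsFrobeniusElt K E' φ)
    (hφgen : ∀ g, g ∈ Subgroup.zpowers φ)
    (α : E) (hα : α ^ n = algebraMap K E π) (hσα : σ α = algebraMap K E ζ * α)
    (u : Kˣ) (β : E') (hβ : β ^ n = algebraMap K E' u)
    (hφβ : φ β = algebraMap K E' ζ ^ t * β)
    (hm' : n * m' = t * Module.finrank K E')
    (f : cocycles₂ (unitsRep K E)) (hf : IsCyclicCocycle σ u f) :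
    I.inv K E (cls f) = -((((t : ℚ) / (n : ℚ) : ℚ)) : AddCircle (1 : ℚ)) := by
  have key := inv_kummer_skew I n 1 t 1 m' hn ζ π u hζ σ hσ φ hφgen α β hα hβ
    (by rw [pow_one]; exact hσα) hφβ (by rw [hE, one_mul, mul_one]) hm' f hf
    (cyclicCocycle φ hφgen π) (isCyclicCocycle_cyclicCocycle φ hφgen π)
  rw [one_smul, I.inv_unramified K E' hE' A hA φ hφ π hπ _
    (isCyclicCocycle_cyclicCocycle φ hφgen π)] at key
  rw [eq_neg_iff_add_eq_zero, ← key]
  congr 1
  rw [← AddCircle.coe_nsmul]
  congr 1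
  have hd' : (0 : ℚ) < Module.finrank K E' := by
    exact_mod_cast Module.finrank_pos
  have hn' : (0 : ℚ) < n := by exact_mod_cast hn
  have hq : (n : ℚ) * m' = t * Module.finrank K E' := by exact_mod_cast hm'
  rw [nsmul_eq_mul]
  field_simp
  linarith

end TameSymbol

end Fermat.Agent.S55.G.Rec.H541
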