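import Fermat.Agent.S55.G.Rec.H541.Tame

/-!
# S55 / layer G / block REC — leaf `REC-Ltame` (helper541), part 3: complements

* `cls_cyclic_self`: for odd `n`, the cyclic class `[σ, αⁿ]` of `E = K(α)`-type extensions is
  trivial (explicit coboundary; this is "`a = N(α)` is a norm", e.g. `inv(cc (-r) χ) = 0`);
* `inv_tame_of_primitive`: `inv_tame` for a primitive `n`-th root of unity (no auxiliary `m'`);
* `frobenius_congruence`: the exponent `t` of `inv_tame` is characterised by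
  `ζ^t ≡ u^((q-1)/n)` modulo the maximal ideal.
-/

set_option autoImplicit false

namespace Fermat.Agent.S55.G.Rec.H541

open groupCohomology Fermat.Agent.S55.L

/-- Exponent bookkeeping for `self_mem_coboundaries` (integer form); `n = 2 k - 1`. -/
theorem self_identity_int {A : Type*} [AddCommGroup A]
    (ζ α : A) (n k d s m I I' I'' e : ℤ)
    (hζ : n • ζ = 0) (hi : I'' + d * e = I + I') (hm : n * m = s * d) (hk : n + 1 = 2 * k) :
    (s * I') • (α + (s * I) • ζ) + (s ^ 2 * k * I' ^ 2) • ζ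
      - ((s * I'') • α + (s ^ 2 * k * I'' ^ 2) • ζ)
      + ((s * I) • α + (s ^ 2 * k * I ^ 2) • ζ)
    = (m * e) • (n • α) := by
  obtain rfl : I' = I'' + d * e - I := by linarith
  obtain rfl : n = 2 * k - 1 := by linarith
  linear_combination (norm := module)
    (-(s ^ 2 * I * (I'' + d * e - I)) + s * m * k * e * (2 * I'' + d * e)) • hζ
      + (-e * hm) • α
      + (-(s * k * e * (2 * I'' + d * e)) * hm) • ζ

theorem self_identity_nat {A : Type*} [AddCommGroup A]
    (ζ α : A) (n k d s m I I' I'' e : ℕ)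
    (hζ : n • ζ = 0) (hi : I'' + d * e = I + I') (hm : n * m = s * d) (hk : n + 1 = 2 * k) :
    (s * I') • (α + (s * I) • ζ) + (s ^ 2 * k * I' ^ 2) • ζ
      - ((s * I'') • α + (s ^ 2 * k * I'' ^ 2) • ζ)
      + ((s * I) • α + (s ^ 2 * k * I ^ 2) • ζ)
    = (m * e) • (n • α) := by
  have h := self_identity_int ζ α (n : ℤ) k d s m I I' I'' e
    (by rw [natCast_zsmul]; exact hζ) (by exact_mod_cast hi) (by exact_mod_cast hm)
    (by exact_mod_cast hk)
  simp only [← Nat.cast_mul, ← Nat.cast_pow, natCast_zsmul] at h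
  exact h

/-- Explicit coboundary for the self-symbol (`n` odd). -/
theorem self_mem_coboundaries {G : Type} [Group G] (A : Rep.{0} ℤ G)
    (ζ α : A.V) (n k d s m : ℕ) (i : G → ℕ)
    (hζn : n • ζ = 0) (hk : n + 1 = 2 * k)
    (hα : ∀ g, A.ρ g α = α + (s * i g) • ζ) (hζ : ∀ g, A.ρ g ζ = ζ)
    (hi : ∀ g h, i (g * h) + d * ((i g + i h) / d) = i g + i h)
    (hm : n * m = s * d)
    (F : G × G → A.V)
    (hF : ∀ g h, F (g, h) = (m * ((i g + i h) / d)) • (n • α)) :
    F ∈ coboundaries₂ A := by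
  refine ⟨fun g => (s * i g) • α + (s ^ 2 * k * i g ^ 2) • ζ, ?_⟩
  funext ⟨g, h⟩
  rw [hF]
  simp only [d₁₂_hom_apply, map_add, map_nsmul, hα, hζ]
  exact self_identity_nat ζ α n k d s m (i g) (i h) (i (g * h)) _ hζn (hi g h) hm hk

section Self

variable {K E : Type} [Field K] [Field E] [Algebra K E] [FiniteDimensional K E] [IsGalois K E]

omit [IsGalois K E] in
/-- The carrier of `unitsRep K E` receives `Eˣ`; Galois action on a Kummer generator. -/
theorem rho_kummer_generator (ζ : Kˣ) (σ : E ≃ₐ[K] E) (hσ : ∀ g, g ∈ Subgroup.zpowers σ)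
    (αu : Eˣ) (s : ℕ) (hσα : σ (αu : E) = algebraMap K E ζ ^ s * αu) (g : E ≃ₐ[K] E) :
    (unitsRep K E).ρ g (toRep K αu) =
      toRep K αu + (s * cexp σ hσ g) • toRep K (Units.map (algebraMap K E : K →* E) ζ) := by
  rw [rho_toRep, ← toRep_pow, ← toRep_mul]
  congr 1
  apply Units.ext
  simp only [Units.coe_map, MonoidHom.coe_coe, Units.val_mul, Units.val_pow_eq_pow_val]
  have h2 : g (αu : E) = algebraMap K E ζ ^ (s * cexp σ hσ g) * αu := by
    conv_lhs => rw [← pow_cexp σ hσ g]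
    exact algEquiv_pow_apply_eq σ ζ αu s hσα _
  rw [h2, mul_comm]

/-- **Self-symbol.**  `n` odd, `αⁿ = a ∈ Kˣ`, `σ α = ζ^s α`, `n m = s [E:K]`: then
`m • [σ, a] = 0` in `H²(Gal(E/K), Eˣ)`.  (For `s = 1`, `[E:K] = n`: `[σ, αⁿ] = 0`.) -/
theorem cls_cyclic_self (n s m : ℕ) (hodd : Odd n) (ζ a : Kˣ) (hζ : ζ ^ n = 1)
    (σ : E ≃ₐ[K] E) (hσ : ∀ g, g ∈ Subgroup.zpowers σ)
    (α : E) (hα : α ^ n = algebraMap K E a)
    (hσα : σ α = algebraMap K E ζ ^ s * α)
    (hm : n * m = s * Module.finrank K E)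
    (f : cocycles₂ (unitsRep K E)) (hf : IsCyclicCocycle σ a f) :
    m • cls f = 0 := by
  have hn : 0 < n := hodd.pos
  obtain ⟨k0, hk0⟩ := hodd
  have hα0 : α ≠ 0 := by
    rintro rfl
    rw [zero_pow hn.ne'] at hα
    exact a.ne_zero ((algebraMap K E).injective (by rw [← hα, map_zero]))
  set αu : Eˣ := Units.mk0 α hα0 with hαu
  have key := self_mem_coboundaries (unitsRep K E)
    (toRep K (Units.map (algebraMap K E : K →* E) ζ)) (toRep K αu)
    n (k0 + 1) (Module.finrank K E) s m (fun g => cexp σ hσ g)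
    (by rw [← toRep_pow, ← map_pow, hζ, map_one, toRep_one])
    (by omega)
    (fun g => rho_kummer_generator ζ σ hσ αu s hσα g)
    (fun g => by
      rw [rho_toRep]
      congr 1
      apply Units.ext
      simp only [Units.coe_map, MonoidHom.coe_coe, AlgEquiv.commutes])
    (fun g h => by
      rw [cexp_mul, orderOf_eq_finrank σ hσ]
      exact Nat.mod_add_div _ _)
    hm
    (⇑(m • f))
    (fun g h => by
      have e2 : n • toRep K αu = toRep K (Units.map (algebraMap K E : K →* E) a) := by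
        rw [← toRep_pow]
        congr 1
        apply Units.ext
        simp only [Units.coe_map, MonoidHom.coe_coe, Units.val_pow_eq_pow_val, hαu,
          Units.val_mk0, hα]
      rw [e2, mul_smul, ← cyclicCocycle_apply σ hσ a f hf g h]
      rfl)
  have h0 := (H2π_eq_zero_iff (m • f)).2 key
  rw [map_nsmul] at h0
  exact h0

end Self

section Primitive

variable {K E E' : Type} [Field K] [Field E] [Field E']
  [Algebra K E] [Algebra K E'] [FiniteDimensional K E] [FiniteDimensional K E']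
  [IsGalois K E] [IsGalois K E'] [IsLocalFld K]

omit [FiniteDimensional K E] [IsGalois K E] [IsLocalFld K] [Algebra K E] in
/-- If `φ β = ζ^t β` with `ζ` a primitive `n`-th root of unity and `β ≠ 0`, then
`n ∣ t * [E':K]`. -/
theorem dvd_mul_finrank_of_primitive (n t : ℕ) (ζ : Kˣ) (hζ : IsPrimitiveRoot ζ n)
    (φ : E' ≃ₐ[K] E') (hφgen : ∀ g, g ∈ Subgroup.zpowers φ)
    (β : E') (hβ0 : β ≠ 0) (hφβ : φ β = algebraMap K E' ζ ^ t * β) :
    n ∣ t * Module.finrank K E' := by
  have h1 := algEquiv_pow_apply_eq φ (ζ : K) β t hφβ (Module.finrank K E')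
  rw [← orderOf_eq_finrank φ hφgen, pow_orderOf_eq_one, AlgEquiv.one_apply] at h1
  have h2 : algebraMap K E' ζ ^ (t * orderOf φ) = 1 := by
    have h1' : (1 : E') * β = algebraMap K E' ζ ^ (t * orderOf φ) * β := by
      rw [one_mul]
      exact h1
    exact (mul_right_cancel₀ hβ0 h1').symm
  rw [← map_pow] at h2
  have h3 : ((ζ : K)) ^ (t * orderOf φ) = 1 :=
    (algebraMap K E').injective (by rw [h2, map_one])
  have h4 : ζ ^ (t * orderOf φ) = 1 := by
    apply Units.ext
    simpa using h3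
  rw [← orderOf_eq_finrank φ hφgen]
  exact hζ.dvd_of_pow_eq_one _ h4

/-- **Tame symbol formula** (primitive root version). -/
theorem inv_tame_of_primitive (I : InvFamily) (n t : ℕ) (hn : 0 < n) (ζ : Kˣ)
    (hζ : IsPrimitiveRoot ζ n)
    (σ : E ≃ₐ[K] E) (hσ : ∀ g, g ∈ Subgroup.zpowers σ) (hE : Module.finrank K E = n)
    (A : ValuationSubring K) (hA : IsLocalRingOfIntegers A) (π : Kˣ)
    (hπ : IsUniformizer A (π : K))
    (hE' : IsUnramifiedExt K E') (φ : E' ≃ₐ[K] E') (hφ : IsFrobeniusElt K E' φ)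
    (hφgen : ∀ g, g ∈ Subgroup.zpowers φ)
    (α : E) (hα : α ^ n = algebraMap K E π) (hσα : σ α = algebraMap K E ζ * α)
    (u : Kˣ) (β : E') (hβ : β ^ n = algebraMap K E' u)
    (hφβ : φ β = algebraMap K E' ζ ^ t * β)
    (f : cocycles₂ (unitsRep K E)) (hf : IsCyclicCocycle σ u f) :
    I.inv K E (cls f) = -((((t : ℚ) / (n : ℚ) : ℚ)) : AddCircle (1 : ℚ)) := by
  have hβ0 : β ≠ 0 := by
    rintro rfl
    rw [zero_pow hn.ne'] at hβ
    exact u.ne_zero ((algebraMap K E').injective (by rw [← hβ, map_zero]))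
  obtain ⟨m', hm'⟩ := dvd_mul_finrank_of_primitive n t ζ hζ φ hφgen β hβ0 hφβ
  exact inv_tame I n t m' hn ζ hζ.pow_eq_one σ hσ hE A hA π hπ hE' φ hφ hφgen α hα hσα u β hβ
    hφβ hm'.symm f hf

end Primitive

section Frobenius

variable {K E' : Type} [Field K] [Field E'] [Algebra K E']

/-- The exponent `t` of the tame symbol formula: if `φ x ≡ x^q` modulo the maximal ideal of the
valuation ring `B` of `E'`, `βⁿ = u` with `u` a unit of `B`, `φ β = ζ^t β` and `q = 1 + n c`,
then `ζ^t ≡ u^c` modulo the maximal ideal of `B`. -/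
theorem frobenius_congruence (B : ValuationSubring E') (φ : E' ≃ₐ[K] E') (q n c t : ℕ)
    (hq : q = 1 + n * c) (hn : 0 < n)
    (hφ : ∀ x ∈ B, φ x - x ^ q ∈ B.nonunits)
    (ζ u : Kˣ) (hu : algebraMap K E' u ∈ B) (hu' : algebraMap K E' (u⁻¹ : Kˣ) ∈ B)
    (β : E') (hβ : β ^ n = algebraMap K E' u)
    (hφβ : φ β = algebraMap K E' ζ ^ t * β) :
    algebraMap K E' ζ ^ t - algebraMap K E' u ^ c ∈ B.nonunits := by
  have hβ0 : β ≠ 0 := by
    rintro rfl
    rw [zero_pow hn.ne'] at hβ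
    exact u.ne_zero ((algebraMap K E').injective (by rw [← hβ, map_zero]))
  -- `β` and `β⁻¹` are integral
  have hβB : β ∈ B := by
    rcases B.mem_or_inv_mem β with h | h
    · exact h
    · have h1 : β = (β⁻¹) ^ (n - 1) * algebraMap K E' u := by
        rw [← hβ, inv_pow]
        field_simp
        rw [← pow_succ', Nat.sub_add_cancel hn]
      rw [h1]
      exact B.mul_mem _ _ (B.pow_mem h _) hu
  have hβB' : β⁻¹ ∈ B := by
    have h1 : β⁻¹ = β ^ (n - 1) * algebraMap K E' (u⁻¹ : Kˣ) := by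
      have hu1 : algebraMap K E' (u⁻¹ : Kˣ) = (β ^ n)⁻¹ := by
        rw [hβ, Units.val_inv_eq_inv_val, map_inv₀]
      rw [hu1]
      field_simp
      rw [← pow_succ', Nat.sub_add_cancel hn]
    rw [h1]
    exact B.mul_mem _ _ (B.pow_mem hβB _) hu'
  have h2 := hφ β hβB
  have h3 : φ β - β ^ q = β * (algebraMap K E' ζ ^ t - algebraMap K E' u ^ c) := by
    rw [hφβ, hq, pow_add, pow_one, pow_mul, hβ]
    ring
  rw [h3] at h2
  -- cancel the unit `β`
  rw [ValuationSubring.mem_nonunits_iff] at h2 ⊢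
  have hvβ : B.valuation β = 1 := by
    have h4 : B.valuation β ≤ 1 := (B.valuation_le_one_iff β).2 hβB
    have h5 : B.valuation β⁻¹ ≤ 1 := (B.valuation_le_one_iff _).2 hβB'
    rw [map_inv₀] at h5
    have h6 : B.valuation β ≠ 0 := (B.valuation.ne_zero_iff).2 hβ0
    have h7 : 1 ≤ B.valuation β := by
      rwa [inv_le_one₀ (zero_lt_iff.2 h6)] at h5
    exact le_antisymm h4 h7
  rwa [map_mul, hvβ, one_mul] at h2

end Frobenius

end Fermat.Agent.S55.G.Rec.H541
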