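import Fermat.Agent.S55.G.Rec.Spec
import Fermat.Agent.S55.G.Rec.H541.Core

/-!
# S55 / layer G / block REC (helper541): the tame symbol in the cochain-level vocabulary

Vocabulary of `Fermat.Agent.S55.G.Rec` (`Defs.lean`, `Spec.lean`, sub-architect helper1):
`lBr q V`, `IsCupChar`, `LocalInvSystem`.

* `lBr_kummer_skew`: skew-symmetry of the Kummer symbol in `Br(K_v) = lBr q V`:
  if `χ_a, χ_b : V → ℤ/n` are the Kummer characters of `α = a^{1/n}`, `β = b^{1/n}`
  (`τ α = ζ^{χ_a τ} α`, `τ β = ζ^{χ_b τ} β`), then `[b ∪ δχ_a] + [a ∪ δχ_b] = 0`.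
  Explicit level-constant coboundary `x(g) = α^{j(g)} β^{i(g)} ζ^{i(g) j(g)}`.
* `cupCharCocycle`: the level cocycle `a ∪ δχ` for a level-constant character `χ` and a
  `V`-fixed `a`.
* `inv_tame_cochain`: for `I : LocalInvSystem`, `αⁿ = π` a uniformizer, `χ_b` unramified,
  `φ` a Frobenius: `inv [b ∪ δχ_π] = - χ_b(φ) / n`.
-/

set_option autoImplicit false

noncomputable section

namespace Fermat.Agent.S55.G.Rec.H541

open groupCohomology Fermat.Agent.S55.G.Rec

section LevelConstant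

variable {G : Type} [Group G] (r : G →* (AlgebraicClosure ℚ ≃ₐ[ℚ] AlgebraicClosure ℚ))

/-- Two level-constant maps have a common level. -/
theorem exists_common_level {X Y : Type*} {f : G → X} {f' : G → Y}
    (hf : IsLevelConstant₁ r f) (hf' : IsLevelConstant₁ r f') :
    ∃ F : IntermediateField ℚ (AlgebraicClosure ℚ), FiniteDimensional ℚ F ∧
      ∀ g s : G, r s ∈ F.fixingSubgroup → f (g * s) = f g ∧ f' (g * s) = f' g := by
  obtain ⟨F, hF, h⟩ := hf
  obtain ⟨F', hF', h'⟩ := hf'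
  have := hF
  have := hF'
  exact ⟨F ⊔ F', inferInstance, fun g s hs =>
    ⟨h g s (IntermediateField.fixingSubgroup_antitone le_sup_left hs),
      h' g s (IntermediateField.fixingSubgroup_antitone le_sup_right hs)⟩⟩

/-- A function of two level-constant maps is level-constant. -/
theorem isLevelConstant₁_of_two {X Y Z : Type*} {f : G → X} {f' : G → Y}
    (hf : IsLevelConstant₁ r f) (hf' : IsLevelConstant₁ r f') (Φ : X → Y → Z) :
    IsLevelConstant₁ r (fun g => Φ (f g) (f' g)) := by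
  obtain ⟨F, hF, h⟩ := exists_common_level r hf hf'
  exact ⟨F, hF, fun g s hs => by
    show Φ (f (g * s)) (f' (g * s)) = Φ (f g) (f' g)
    rw [(h g s hs).1, (h g s hs).2]⟩

/-- A function of the values of a level-constant map at the two arguments is a level-constant
2-cochain. -/
theorem isLevelConstant₂_of_one {X Z : Type*} {f : G → X}
    (hf : IsLevelConstant₁ r f) (Φ : X → X → Z) :
    IsLevelConstant₂ r (fun p : G × G => Φ (f p.1) (f p.2)) := by
  obtain ⟨F, hF, h⟩ := hf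
  exact ⟨F, hF, fun g g' s s' hs hs' => by
    show Φ (f (g * s)) (f (g' * s')) = Φ (f g) (f g')
    rw [h g s hs, h g' s' hs']⟩

end LevelConstant

section Carry

/-- The value (in `ℕ`) of a character with values in `Multiplicative (ZMod n)`. -/
def chVal {G : Type*} [Group G] {n : ℕ} (χ : G →* Multiplicative (ZMod n)) (g : G) : ℕ :=
  (Multiplicative.toAdd (χ g)).val

theorem chVal_mul {G : Type*} [Group G] {n : ℕ} [NeZero n] (χ : G →* Multiplicative (ZMod n))
    (g h : G) : chVal χ (g * h) + n * ((chVal χ g + chVal χ h) / n) = chVal χ g + chVal χ h := by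
  have h1 : chVal χ (g * h) = (chVal χ g + chVal χ h) % n := by
    unfold chVal
    rw [map_mul, toAdd_mul, ZMod.val_add]
  rw [h1]
  exact Nat.mod_add_div _ _

theorem carry_assoc_nat (a b c d : ℕ) :
    ((a + b) % d + c) / d + (a + b) / d = (b + c) / d + (a + (b + c) % d) / d := by
  rcases Nat.eq_zero_or_pos d with rfl | hd
  · simp
  have h1 : ((a + b) % d + c) / d + (a + b) / d = (a + b + c) / d := by
    conv_rhs => rw [← Nat.mod_add_div (a + b) d]
    rw [show (a + b) % d + d * ((a + b) / d) + c = ((a + b) % d + c) + d * ((a + b) / d) by ring,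
      Nat.add_mul_div_left _ _ hd]
  have h2 : (b + c) / d + (a + (b + c) % d) / d = (a + b + c) / d := by
    conv_rhs => rw [add_assoc, ← Nat.mod_add_div (b + c) d]
    rw [show a + ((b + c) % d + d * ((b + c) / d)) = (a + (b + c) % d) + d * ((b + c) / d) by
      ring, Nat.add_mul_div_left _ _ hd, add_comm]
  rw [h1, h2]

end Carry

section Local

variable (q : ℕ) [Fact q.Prime]

local notation "Gq" => (PadicAlgCl q ≃ₐ[ℚ_[q]] PadicAlgCl q)

variable {q}

theorem rho_toLMod (V : Subgroup Gq) (τ : ↥V) (x : (PadicAlgCl q)ˣ) :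
    (lModOn q V).ρ τ (toLMod q V x) =
      toLMod q V (Units.map ((τ : Gq) : PadicAlgCl q →* PadicAlgCl q) x) := rfl

theorem toLMod_mul (V : Subgroup Gq) (x y : (PadicAlgCl q)ˣ) :
    toLMod q V (x * y) = toLMod q V x + toLMod q V y := rfl

theorem toLMod_pow (V : Subgroup Gq) (x : (PadicAlgCl q)ˣ) (k : ℕ) :
    toLMod q V (x ^ k) = k • toLMod q V x := rfl

theorem toLMod_one (V : Subgroup Gq) : toLMod q V (1 : (PadicAlgCl q)ˣ) = 0 := rfl

/-- Galois action on a Kummer generator, additively. -/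
theorem rho_kummer (V : Subgroup Gq) (n : ℕ) (ζ α : (PadicAlgCl q)ˣ)
    (χ : ↥V →* Multiplicative (ZMod n))
    (hχ : ∀ τ : ↥V, (τ : Gq) (α : PadicAlgCl q) = (ζ : PadicAlgCl q) ^ chVal χ τ * α) (τ : ↥V) :
    (lModOn q V).ρ τ (toLMod q V α) = toLMod q V α + (1 * chVal χ τ) • toLMod q V ζ := by
  rw [rho_toLMod, one_mul, ← toLMod_pow, ← toLMod_mul]
  congr 1
  apply Units.ext
  simp only [Units.coe_map, MonoidHom.coe_coe, Units.val_mul, Units.val_pow_eq_pow_val]
  rw [hχ τ, mul_comm]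

/-- **Skew-symmetry of the Kummer symbol in `Br(K_v)`** (cochain level). -/
theorem lBr_kummer_skew (V : Subgroup Gq) (n : ℕ) [NeZero n] (ζ α β : (PadicAlgCl q)ˣ)
    (hζn : ζ ^ n = 1) (hζV : ∀ τ : ↥V, (τ : Gq) (ζ : PadicAlgCl q) = ζ)
    (χa χb : ↥V →* Multiplicative (ZMod n))
    (hχa : ∀ τ : ↥V, (τ : Gq) (α : PadicAlgCl q) = (ζ : PadicAlgCl q) ^ chVal χa τ * α)
    (hχb : ∀ τ : ↥V, (τ : Gq) (β : PadicAlgCl q) = (ζ : PadicAlgCl q) ^ chVal χb τ * β)
    (hla : IsLevelConstant₁ (lHom q V) χa) (hlb : IsLevelConstant₁ (lHom q V) χb)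
    (c₁ c₂ : ↥(levelCocycles₂ (lHom q V) (lModOn q V)))
    (h₁ : IsCupChar (toLMod q V (β ^ n)) χa (c₁ : ↥V × ↥V → lModOn q V))
    (h₂ : IsCupChar (toLMod q V (α ^ n)) χb (c₂ : ↥V × ↥V → lModOn q V)) :
    continuousH2π (lHom q V) (lModOn q V) c₁ + continuousH2π (lHom q V) (lModOn q V) c₂ = 0 := by
  rw [← map_add, continuousH2π_eq_zero_iff, mem_levelCoboundaries₂_iff]
  refine ⟨fun g => (1 * chVal χb g) • toLMod q V α + (1 * chVal χa g) • toLMod q V β +
      (1 * 1 * chVal χa g * chVal χb g) • toLMod q V ζ, ?_, ?_⟩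
  · exact isLevelConstant₁_of_two (lHom q V) hla hlb
      (fun x y => (1 * (Multiplicative.toAdd y).val) • toLMod q V α +
        (1 * (Multiplicative.toAdd x).val) • toLMod q V β +
        (1 * 1 * (Multiplicative.toAdd x).val * (Multiplicative.toAdd y).val) • toLMod q V ζ)
  · funext ⟨g, h⟩
    have hζ' : ∀ τ : ↥V, (lModOn q V).ρ τ (toLMod q V ζ) = toLMod q V ζ := by
      intro τ
      rw [rho_toLMod]
      congr 1
      apply Units.ext
      simp only [Units.coe_map, MonoidHom.coe_coe]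
      exact hζV τ
    have hζn' : n • toLMod q V ζ = 0 := by
      rw [← toLMod_pow, hζn, toLMod_one]
    have hval : ((c₁ + c₂ : ↥(levelCocycles₂ (lHom q V) (lModOn q V))) :
        ↥V × ↥V → lModOn q V) (g, h) =
        (1 * ((chVal χa g + chVal χa h) / n)) • (n • toLMod q V β) +
          (1 * ((chVal χb g + chVal χb h) / n)) • (n • toLMod q V α) := by
      show (c₁ : ↥V × ↥V → lModOn q V) (g, h) + (c₂ : ↥V × ↥V → lModOn q V) (g, h) = _
      rw [h₁ g h, h₂ g h, one_mul, one_mul, ← toLMod_pow, ← toLMod_pow]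
      rfl
    rw [hval]
    simp only [d₁₂_hom_apply, map_add, map_nsmul, rho_kummer V n ζ α χa hχa,
      rho_kummer V n ζ β χb hχb, hζ']
    exact core_identity_nat (toLMod q V ζ) (toLMod q V α) (toLMod q V β) n n n 1 1 1 1
      (chVal χa g) (chVal χa h) (chVal χa (g * h)) (chVal χb g) (chVal χb h) (chVal χb (g * h))
      _ _ hζn' (chVal_mul χa g h) (chVal_mul χb g h) (by ring) (by ring)

/-- The level cocycle `a ∪ δχ`, `(g, h) ↦ carry(χ g, χ h) • a`, for a level-constant character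
`χ` and a `V`-fixed element `a`. -/
def cupCharCocycle (V : Subgroup Gq) (n : ℕ) [NeZero n] (a : (PadicAlgCl q)ˣ)
    (ha : ∀ τ : ↥V, (τ : Gq) (a : PadicAlgCl q) = a)
    (χ : ↥V →* Multiplicative (ZMod n)) (hl : IsLevelConstant₁ (lHom q V) χ) :
    ↥(levelCocycles₂ (lHom q V) (lModOn q V)) :=
  ⟨fun p => ((chVal χ p.1 + chVal χ p.2) / n) • toLMod q V a, by
    refine ⟨(mem_cocycles₂_iff _).2 ?_, ?_⟩
    · intro g h j
      have hfix : (lModOn q V).ρ g (toLMod q V a) = toLMod q V a := by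
        rw [rho_toLMod]
        congr 1
        apply Units.ext
        simp only [Units.coe_map, MonoidHom.coe_coe]
        exact ha g
      have e1 : chVal χ (g * h) = (chVal χ g + chVal χ h) % n := by
        unfold chVal
        rw [map_mul, toAdd_mul, ZMod.val_add]
      have e2 : chVal χ (h * j) = (chVal χ h + chVal χ j) % n := by
        unfold chVal
        rw [map_mul, toAdd_mul, ZMod.val_add]
      simp only [map_nsmul, hfix, ← add_smul, e1, e2]
      rw [carry_assoc_nat]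
    · exact isLevelConstant₂_of_one (lHom q V) hl
        (fun x y => (((Multiplicative.toAdd x).val + (Multiplicative.toAdd y).val) / n) •
          toLMod q V a)⟩

theorem isCupChar_cupCharCocycle (V : Subgroup Gq) (n : ℕ) [NeZero n] (a : (PadicAlgCl q)ˣ)
    (ha : ∀ τ : ↥V, (τ : Gq) (a : PadicAlgCl q) = a)
    (χ : ↥V →* Multiplicative (ZMod n)) (hl : IsLevelConstant₁ (lHom q V) χ) :
    IsCupChar (toLMod q V a) χ
      (cupCharCocycle V n a ha χ hl : ↥V × ↥V → lModOn q V) :=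
  fun _ _ => rfl

/-- **Tame symbol formula, cochain level.**  `αⁿ = π` a uniformizer of `K_v = ℚ̄_q^V`,
`χ_π, χ_b` the Kummer characters of `α`, `β = b^{1/n}`, `χ_b` unramified, `φ` a Frobenius:
`inv_v [b ∪ δχ_π] = - χ_b(φ) / n`. -/
theorem inv_tame_cochain (I : LocalInvSystem) (V : Subgroup Gq) (hV : IsOpenL q V)
    (n : ℕ) [NeZero n] (ζ α β : (PadicAlgCl q)ˣ)
    (hζn : ζ ^ n = 1) (hζV : ∀ τ : ↥V, (τ : Gq) (ζ : PadicAlgCl q) = ζ)
    (χa χb : ↥V →* Multiplicative (ZMod n))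
    (hχa : ∀ τ : ↥V, (τ : Gq) (α : PadicAlgCl q) = (ζ : PadicAlgCl q) ^ chVal χa τ * α)
    (hχb : ∀ τ : ↥V, (τ : Gq) (β : PadicAlgCl q) = (ζ : PadicAlgCl q) ^ chVal χb τ * β)
    (hla : IsLevelConstant₁ (lHom q V) χa) (hlb : IsLevelConstant₁ (lHom q V) χb)
    (hunr : ∀ τ : ↥V, IsInertial q (τ : Gq) → χb τ = 1)
    (φ : Gq) (hφ : IsFrobenius q V φ)
    (hπ : IsUniformizer q V (((α ^ n : (PadicAlgCl q)ˣ)) : PadicAlgCl q))
    (c₁ : ↥(levelCocycles₂ (lHom q V) (lModOn q V)))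
    (h₁ : IsCupChar (toLMod q V (β ^ n)) χa (c₁ : ↥V × ↥V → lModOn q V)) :
    I.inv q V (continuousH2π (lHom q V) (lModOn q V) c₁) =
      -((((chVal χb ⟨φ, hφ.1⟩ : ℚ) / (n : ℚ) : ℚ)) : AddCircle (1 : ℚ)) := by
  have ha : ∀ τ : ↥V, (τ : Gq) (((α ^ n : (PadicAlgCl q)ˣ)) : PadicAlgCl q) =
      ((α ^ n : (PadicAlgCl q)ˣ) : PadicAlgCl q) := fun τ => hπ.1 τ τ.2
  have key := lBr_kummer_skew V n ζ α β hζn hζV χa χb hχa hχb hla hlb c₁
    (cupCharCocycle V n (α ^ n) ha χb hlb) h₁ (isCupChar_cupCharCocycle V n (α ^ n) ha χb hlb)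
  have key2 := congrArg (I.inv q V) key
  rw [map_add, map_zero,
    I.inv_unif q V hV n χb hunr φ hφ (α ^ n) hπ _
      (isCupChar_cupCharCocycle V n (α ^ n) ha χb hlb)] at key2
  exact eq_neg_of_add_eq_zero_left key2

end Local

end Fermat.Agent.S55.G.Rec.H541
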