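import Fermat.Agent.S55.G.Rec.H541.TameCochain

/-!
# S55 / layer G / block REC (helper541): Kummer characters in `ℚ̄_q`

Tools to feed `lBr_kummer_skew` / `inv_tame_cochain`:

* `eq_one_of_pow_eq_one_of_norm_sub_lt`: in `ℚ̄_q`, an `n`-th root of unity (`q ∤ n`) with
  `‖η - 1‖ < 1` is `1`;
* `kummerChar_unramified`: the Kummer character of a unit `β` (`βⁿ ∈ K_v`, `q ∤ n`) is trivial
  on inertial elements;
* `isLevelConstant₁_kummerChar`: the Kummer character of `α = ι_q(α₀)`, `α₀ ∈ ℚ̄`, is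
  level-constant;
* `chVal_frobenius_spec`: `ζ ^ χ_b(φ) ≡ β^(q^f - 1)` modulo the maximal ideal.
-/

set_option autoImplicit false

noncomputable section

namespace Fermat.Agent.S55.G.Rec.H541

open groupCohomology Fermat.Agent.S55.G.Rec

variable {q : ℕ} [Fact q.Prime]

local notation "Gq" => (PadicAlgCl q ≃ₐ[ℚ_[q]] PadicAlgCl q)

theorem norm_natCast_padicAlgCl (n : ℕ) (hn : ¬ q ∣ n) : ‖(n : PadicAlgCl q)‖ = 1 := by
  have h1 : ((n : ℚ_[q]) : PadicAlgCl q) = (n : PadicAlgCl q) := map_natCast _ n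
  rw [← h1, PadicAlgCl.norm_extends, Padic.norm_natCast_eq_one_iff]
  exact (Nat.Prime.coprime_iff_not_dvd (Fact.out : q.Prime)).2 hn

theorem norm_eq_one_of_pow_eq_one_padic (η : PadicAlgCl q) (n : ℕ) (hn0 : n ≠ 0)
    (hη : η ^ n = 1) : ‖η‖ = 1 := by
  have h1 : ‖η‖ ^ n = 1 := by rw [← norm_pow, hη, norm_one]
  exact (pow_eq_one_iff_of_nonneg (norm_nonneg η) hn0).1 h1

/-- An `n`-th root of unity (`q ∤ n`) which is `≡ 1` modulo the maximal ideal is `1`. -/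
theorem eq_one_of_pow_eq_one_of_norm_sub_lt (η : PadicAlgCl q) (n : ℕ) (hn : ¬ q ∣ n)
    (hη : η ^ n = 1) (hlt : ‖η - 1‖ < 1) : η = 1 := by
  by_contra hne
  have hn0 : n ≠ 0 := fun h => hn (h ▸ dvd_zero q)
  have hη1 : ‖η‖ = 1 := norm_eq_one_of_pow_eq_one_padic η n hn0 hη
  have hsub : η - 1 ≠ 0 := sub_ne_zero.2 hne
  have hsum : ∑ i ∈ Finset.range n, η ^ i = 0 := by
    have h := geom_sum_mul η n
    rw [hη, sub_self] at h
    exact (mul_eq_zero.1 h).resolve_right hsub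
  have hgeo : ∀ i : ℕ, ‖∑ j ∈ Finset.range i, η ^ j‖ ≤ 1 := fun i =>
    IsUltrametricDist.norm_sum_le_of_forall_le_of_nonneg zero_le_one
      (fun j _ => by rw [norm_pow, hη1, one_pow])
  have hbound : ∀ i : ℕ, ‖η ^ i - 1‖ ≤ ‖η - 1‖ := by
    intro i
    rw [← geom_sum_mul η i, norm_mul]
    calc ‖∑ j ∈ Finset.range i, η ^ j‖ * ‖η - 1‖ ≤ 1 * ‖η - 1‖ :=
          mul_le_mul_of_nonneg_right (hgeo i) (norm_nonneg _)
      _ = ‖η - 1‖ := one_mul _
  have hn' : (n : PadicAlgCl q) = -∑ i ∈ Finset.range n, (η ^ i - 1) := by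
    rw [Finset.sum_sub_distrib, hsum, zero_sub, neg_neg, Finset.sum_const, Finset.card_range,
      nsmul_eq_mul, mul_one]
  have h1 : ‖(n : PadicAlgCl q)‖ ≤ ‖η - 1‖ := by
    rw [hn', norm_neg]
    exact IsUltrametricDist.norm_sum_le_of_forall_le_of_nonneg (norm_nonneg _)
      (fun i _ => hbound i)
  rw [norm_natCast_padicAlgCl n hn] at h1
  exact absurd hlt (not_lt.2 h1)

/-- The Kummer character of a unit `β` is unramified (`q ∤ n`). -/
theorem kummerChar_unramified (V : Subgroup Gq) (n : ℕ) [NeZero n] (hn : ¬ q ∣ n)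
    (ζ β : (PadicAlgCl q)ˣ) (hζ : IsPrimitiveRoot ζ n)
    (hβ : ‖(β : PadicAlgCl q)‖ = 1)
    (χ : ↥V →* Multiplicative (ZMod n))
    (hχ : ∀ τ : ↥V, (τ : Gq) (β : PadicAlgCl q) = (ζ : PadicAlgCl q) ^ chVal χ τ * β)
    (τ : ↥V) (hτ : IsInertial q (τ : Gq)) : χ τ = 1 := by
  have h1 := hτ (β : PadicAlgCl q) hβ.le
  rw [hχ τ] at h1
  have h2 : (ζ : PadicAlgCl q) ^ chVal χ τ * β - β = ((ζ : PadicAlgCl q) ^ chVal χ τ - 1) * β := by
    ring
  rw [h2, norm_mul, hβ, mul_one] at h1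
  have hpow : ((ζ : PadicAlgCl q) ^ chVal χ τ) ^ n = 1 := by
    rw [← pow_mul, mul_comm, pow_mul]
    have : (ζ : PadicAlgCl q) ^ n = 1 := by
      have := congrArg (fun u : (PadicAlgCl q)ˣ => (u : PadicAlgCl q)) hζ.pow_eq_one
      simpa using this
    rw [this, one_pow]
  have h3 := eq_one_of_pow_eq_one_of_norm_sub_lt _ n hn hpow h1
  have h4 : ζ ^ chVal χ τ = 1 := by
    apply Units.ext
    simpa using h3
  have h5 : n ∣ chVal χ τ := hζ.dvd_of_pow_eq_one _ h4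
  have h6 : chVal χ τ < n := ZMod.val_lt _
  have h7 : chVal χ τ = 0 := Nat.eq_zero_of_dvd_of_lt h5 h6
  have h8 : Multiplicative.toAdd (χ τ) = 0 := (ZMod.val_eq_zero _).1 h7
  exact h8

/-- The Kummer character of an algebraic number `α = ι_q α₀` is level-constant. -/
theorem isLevelConstant₁_kummerChar (V : Subgroup Gq) (n : ℕ) [NeZero n]
    (ζ α : (PadicAlgCl q)ˣ) (hζ : IsPrimitiveRoot ζ n)
    (α₀ : AlgebraicClosure ℚ) (hα₀ : padicEmbedding q α₀ = (α : PadicAlgCl q))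
    (χ : ↥V →* Multiplicative (ZMod n))
    (hχ : ∀ τ : ↥V, (τ : Gq) (α : PadicAlgCl q) = (ζ : PadicAlgCl q) ^ chVal χ τ * α) :
    IsLevelConstant₁ (lHom q V) χ := by
  have halg : IsIntegral ℚ α₀ := ((AlgebraicClosure.isAlgebraic ℚ).isAlgebraic α₀).isIntegral
  refine ⟨IntermediateField.adjoin ℚ {α₀}, IntermediateField.adjoin.finiteDimensional halg,
    fun g s hs => ?_⟩
  have hfix : (lHom q V s) α₀ = α₀ :=
    hs ⟨α₀, IntermediateField.mem_adjoin_simple_self ℚ α₀⟩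
  have h1 : (s : Gq) (α : PadicAlgCl q) = α := by
    rw [← hα₀]
    have := padicEmbedding_localGaloisToGlobal q (s : Gq) α₀
    rw [← this]
    congr 1
  have h2 := hχ s
  rw [h1] at h2
  have h3 : (ζ : PadicAlgCl q) ^ chVal χ s = 1 := by
    have hα0 : (α : PadicAlgCl q) ≠ 0 := α.ne_zero
    have : (1 : PadicAlgCl q) * α = (ζ : PadicAlgCl q) ^ chVal χ s * α := by rw [one_mul]; exact h2
    exact (mul_right_cancel₀ hα0 this).symm
  have h4 : ζ ^ chVal χ s = 1 := by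
    apply Units.ext
    simpa using h3
  have h5 : n ∣ chVal χ s := hζ.dvd_of_pow_eq_one _ h4
  have h6 : chVal χ s < n := ZMod.val_lt _
  have h7 : chVal χ s = 0 := Nat.eq_zero_of_dvd_of_lt h5 h6
  have h8 : χ s = 1 := (ZMod.val_eq_zero _).1 h7
  rw [map_mul, h8, mul_one]

/-- The value `χ_b(φ)` at a Frobenius: `ζ ^ χ_b(φ) ≡ β ^ (N - 1)` modulo the maximal ideal,
where `φ x ≡ x ^ N`. -/
theorem chVal_frobenius_spec (V : Subgroup Gq) (n N : ℕ) (hN : 0 < N)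
    (ζ β : (PadicAlgCl q)ˣ) (hβ : ‖(β : PadicAlgCl q)‖ = 1)
    (χ : ↥V →* Multiplicative (ZMod n))
    (hχ : ∀ τ : ↥V, (τ : Gq) (β : PadicAlgCl q) = (ζ : PadicAlgCl q) ^ chVal χ τ * β)
    (φ : ↥V) (hφ : ∀ x : PadicAlgCl q, ‖x‖ ≤ 1 → ‖(φ : Gq) x - x ^ N‖ < 1) :
    ‖(ζ : PadicAlgCl q) ^ chVal χ φ - (β : PadicAlgCl q) ^ (N - 1)‖ < 1 := by
  have h1 := hφ (β : PadicAlgCl q) hβ.le
  rw [hχ φ] at h1
  have h2 : (ζ : PadicAlgCl q) ^ chVal χ φ * β - (β : PadicAlgCl q) ^ N =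
      ((ζ : PadicAlgCl q) ^ chVal χ φ - (β : PadicAlgCl q) ^ (N - 1)) * β := by
    have : (β : PadicAlgCl q) ^ N = (β : PadicAlgCl q) ^ (N - 1) * β := by
      rw [← pow_succ, Nat.sub_add_cancel hN]
    rw [this]
    ring
  rwa [h2, norm_mul, hβ, mul_one] at h1

end Fermat.Agent.S55.G.Rec.H541
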